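import Fermat.Agent.TW.NormChar.Norm
import Fermat.Agent.TW.Places

/-!
# Congruences modulo an integer in the local ring of a place, and norms
-/

set_option autoImplicit false
set_option linter.unusedSectionVars false

open IsDedekindDomain NumberField
open scoped Pointwise

noncomputable section

namespace FLTAgent.LT.Recip

open FLTAgent.TW FLTAgent.Frobenius

local instance : IsGalois ℚ Qb := qb_isGalois

/-- `x ≡ y` modulo `n` in the local ring of `A`. -/
def CongAt (A : ValuationSubring Qb) (n : ℕ) (x y : Zbar) : Prop :=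
  ∃ s : Zbar, s ∉ centre A ∧ (n : Zbar) ∣ s * (x - y)

namespace CongAt

variable {A : ValuationSubring Qb} {n : ℕ} {x y x' y' : Zbar}

theorem refl (x : Zbar) : CongAt A n x x :=
  ⟨1, (Ideal.ne_top_iff_one _).mp (centre_isPrime A).ne_top, by simp⟩

theorem mul (h : CongAt A n x y) (h' : CongAt A n x' y') : CongAt A n (x * x') (y * y') := by
  obtain ⟨s, hs, hd⟩ := h
  obtain ⟨s', hs', hd'⟩ := h'
  refine ⟨s * s', fun hm => ((centre_isPrime A).mem_or_mem hm).elim hs hs', ?_⟩
  rw [show s * s' * (x * x' - y * y') = s' * x' * (s * (x - y)) + s * y * (s' * (x' - y')) by ring]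
  exact dvd_add (hd.mul_left _) (hd'.mul_left _)

theorem prod_one {ι : Type*} (S : Finset ι) (f : ι → Zbar) (h : ∀ i ∈ S, CongAt A n (f i) 1) :
    CongAt A n (∏ i ∈ S, f i) 1 := by
  classical
  induction S using Finset.induction with
  | empty => simpa using refl (A := A) (n := n) 1
  | insert a S ha ih =>
    rw [Finset.prod_insert ha]
    simpa using (h a (Finset.mem_insert_self a S)).mul
      (ih fun i hi => h i (Finset.mem_insert_of_mem hi))

end CongAt

/-- An element of a number field in the valuation ring is a fraction prime to the centre. -/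
theorem exists_mul_eq_of_mem {K : IntermediateField ℚ Qb} [FiniteDimensional ℚ K]
    {A : ValuationSubring Qb} {l : ℕ} (hl : l.Prime) (hA : A.LiesOverPrime l) {z : K}
    (hz : (z : Qb) ∈ A) :
    ∃ b ∈ (placeIn K A hl hA).asIdeal.primeCompl, ∃ a : 𝓞 K, (b : K) * z = a := by
  obtain ⟨a, d, h | h⟩ :=
    HeightOneSpectrum.exists_primeCompl_mul_eq_or_mul_eq (placeIn K A hl hA) z
  · exact ⟨d, d.2, a, (mul_comm _ _).trans h⟩
  · refine ⟨a, fun ha => d.2 (show (((d : 𝓞 K) : K) : Qb) ∈ A.nonunits from ?_), d,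
      (mul_comm _ _).trans h⟩
    rw [show ((d : 𝓞 K) : K) = z * (a : K) from h.symm, MulMemClass.coe_mul]
    exact nonunits_mul_mem A hz ha

/-- Congruences in the local ring descend. -/
theorem CongAt.descend {K : IntermediateField ℚ Qb} [FiniteDimensional ℚ K]
    {A : ValuationSubring Qb} {l : ℕ} (hl : l.Prime) (hA : A.LiesOverPrime l) {n : ℕ}
    (hn : n ≠ 0) {x y : 𝓞 K} (h : CongAt A n (toZbar K x) (toZbar K y)) :
    ∃ t : 𝓞 K, t ∉ (placeIn K A hl hA).asIdeal ∧ (n : 𝓞 K) ∣ t * (x - y) := by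
  obtain ⟨s, hs, w, hw⟩ := h
  set z : K := ((x : K) - (y : K)) / (n : K) with hz
  have hn' : (n : Qb) ≠ 0 := Nat.cast_ne_zero.mpr hn
  have hsz : (s : Qb) * (z : Qb) = (w : Qb) := by
    have h1 := congrArg (fun u : Zbar => (u : Qb)) hw
    push_cast at h1
    simp only [hz]
    push_cast
    rw [← mul_div_assoc, div_eq_iff hn', mul_comm (w : Qb)]
    exact h1
  have hzA : (z : Qb) ∈ A := by
    have hs' : (s : Qb) ∉ A.nonunits := hs
    have hs0 : (s : Qb) ≠ 0 := fun h0 => hs' (by rw [h0]; exact A.nonunits.zero_mem)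
    rw [show (z : Qb) = (s : Qb)⁻¹ * (w : Qb) by rw [← hsz, inv_mul_cancel_left₀ hs0]]
    exact A.mul_mem _ _ (inv_mem_of_notMem_nonunits A hs') (mem_of_isIntegral A w.2)
  obtain ⟨b, hb, a, hab⟩ := exists_mul_eq_of_mem hl hA hzA
  refine ⟨b, hb, a, RingOfIntegers.ext ?_⟩
  have h2 : (b : K) * ((x : K) - (y : K)) = (n : K) * (a : K) := by
    rw [← hab, hz]
    field_simp
  push_cast
  exact h2

theorem CongAt.of_dvd {K : IntermediateField ℚ Qb} {A : ValuationSubring Qb} {n : ℕ}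
    {x y t : 𝓞 K} (ht : t ∉ centreIn K A) (h : (n : 𝓞 K) ∣ t * (x - y)) :
    CongAt A n (toZbar K x) (toZbar K y) := by
  refine ⟨toZbar K t, ht, ?_⟩
  have := map_dvd (toZbar K) h
  rwa [map_natCast, map_mul, map_sub] at this

/-- Congruences are transported by automorphisms. -/
theorem CongAt.smul {A : ValuationSubring Qb} {n : ℕ} {x y : Zbar} (h : CongAt A n x y) (g : Γ) :
    CongAt (g • A) n (g • x) (g • y) := by
  obtain ⟨s, hs, hd⟩ := h
  refine ⟨g • s, fun hm => hs ?_, ?_⟩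
  · rwa [centre_smul, Ideal.smul_mem_pointwise_smul_iff] at hm
  · have := map_dvd (MulSemiringAction.toRingHom Γ Zbar g) hd
    rw [map_natCast, map_mul, map_sub] at this
    exact this

section norm

variable {K R : IntermediateField ℚ Qb} [FiniteDimensional ℚ K] [FiniteDimensional ℚ R]
  [Algebra K R] [IsInclusion K R]

/-- The norm is a product of conjugates. -/
theorem toZbar_intNorm (x : 𝓞 R) :
    ∃ (ι : Type) (_ : Fintype ι) (g : ι → Γ), (∀ i, g i ∈ K.fixingSubgroup) ∧
      (∃ i₀, g i₀ ∈ R.fixingSubgroup ∧ ∀ i, i ≠ i₀ → g i ∉ R.fixingSubgroup) ∧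
      toZbar K (Algebra.intNorm (𝓞 K) (𝓞 R) x) = ∏ i, g i • toZbar R x := by
  classical
  have := IsInclusion.scalarTower (K := K) (L := R)
  have : FiniteDimensional K R := FiniteDimensional.right ℚ K R
  have : Normal ℚ Qb := IsGalois.to_normal
  let σ : (R →ₐ[K] Qb) → Γ := fun e => AlgEquiv.ofBijective
    ((e.restrictScalars ℚ).liftNormal Qb) (AlgHom.normal_bijective ℚ Qb Qb _)
  have hσ : ∀ (e : R →ₐ[K] Qb) (x : R), σ e (x : Qb) = e x := fun e x =>
    AlgHom.liftNormal_commutes (e.restrictScalars ℚ) Qb x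
  let e₀ : R →ₐ[K] Qb := { R.val.toRingHom with
    commutes' := fun r => IsInclusion.coe_algebraMap r }
  refine ⟨R →ₐ[K] Qb, inferInstance, σ,
    fun e => (IntermediateField.mem_fixingSubgroup_iff _ _).mpr fun y hy => ?_, ⟨e₀, ?_, ?_⟩, ?_⟩
  · have h := hσ e (algebraMap K R ⟨y, hy⟩)
    rw [IsInclusion.coe_algebraMap, e.commutes] at h
    exact h
  · exact (IntermediateField.mem_fixingSubgroup_iff _ _).mpr fun y hy => hσ e₀ ⟨y, hy⟩
  · intro e he hfix
    exact he (AlgHom.ext fun y => by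
      rw [← hσ, apply_coe_eq_of_mem_fixing hfix]
      rfl)
  · refine Subtype.ext ?_
    have h := Algebra.norm_eq_prod_embeddings K Qb (x : R)
    have h' : ((∏ e, σ e • toZbar R x : Zbar) : Qb) = ∏ e : R →ₐ[K] Qb, e (x : R) := by
      rw [SubmonoidClass.coe_finsetProd]
      exact Finset.prod_congr rfl fun e _ => hσ e (x : R)
    rw [h', ← h, ← Algebra.algebraMap_intNorm (A := 𝓞 K) (K := K) (B := 𝓞 R) (L := R) x]
    rfl

/-- A norm is congruent to `1` if all conjugates are. -/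
theorem congAt_norm_one {A : ValuationSubring Qb} {n : ℕ} {x : 𝓞 R}
    (h : ∀ g ∈ K.fixingSubgroup, CongAt A n (g • toZbar R x) 1) :
    CongAt A n (toZbar K (Algebra.intNorm (𝓞 K) (𝓞 R) x)) 1 := by
  obtain ⟨ι, _, g, hg, -, he⟩ := toZbar_intNorm (K := K) x
  rw [he]
  exact CongAt.prod_one _ _ fun i _ => h _ (hg i)

/-- A norm is congruent to its distinguished factor if the other conjugates are congruent to `1`. -/
theorem congAt_norm {A : ValuationSubring Qb} {n : ℕ} {x : 𝓞 R} {a : Zbar}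
    (h₀ : CongAt A n (toZbar R x) a)
    (h : ∀ g ∈ K.fixingSubgroup, g ∉ R.fixingSubgroup → CongAt A n (g • toZbar R x) 1) :
    CongAt A n (toZbar K (Algebra.intNorm (𝓞 K) (𝓞 R) x)) a := by
  classical
  obtain ⟨ι, _, g, hg, ⟨i₀, hi₀, hne⟩, he⟩ := toZbar_intNorm (K := K) x
  rw [he, ← Finset.mul_prod_erase _ _ (Finset.mem_univ i₀),
    show g i₀ • toZbar R x = toZbar R x from
      Subtype.ext (apply_coe_eq_of_mem_fixing hi₀ (x : R))]
  simpa using h₀.mul (CongAt.prod_one (A := A) (n := n) _ _ fun i hi =>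
    h _ (hg i) (hne i (Finset.ne_of_mem_erase hi)))

end norm

section splitting

variable {S : Type} [CommRing S] [IsDedekindDomain S]

/-- The decomposition of an integer at a prime. -/
theorem exists_prime_split (P : HeightOneSpectrum S) {n : ℕ} (hn : (n : S) ≠ 0) :
    ∃ (k : ℕ) (J : Ideal S), Ideal.span {(n : S)} = P.asIdeal ^ k * J ∧ ¬ J ≤ P.asIdeal := by
  have hne : Ideal.span {(n : S)} ≠ 0 := mt Ideal.span_singleton_eq_bot.mp hn
  obtain ⟨k, J, hJ, h⟩ :=
    WfDvdMonoid.max_power_factor hne ((Ideal.prime_of_isPrime P.ne_bot P.isPrime).irreducible)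
  exact ⟨k, J, h, fun hle => hJ (Ideal.dvd_iff_le.mpr hle)⟩

variable {P : HeightOneSpectrum S} {n : ℕ} {k : ℕ} {J : Ideal S}
  (hJ : Ideal.span {(n : S)} = P.asIdeal ^ k * J) (hJP : ¬ J ≤ P.asIdeal)

include hJP in
/-- Chinese remainders. -/
theorem exists_congr_one (a : S) (j : ℕ) : ∃ x : S, x - a ∈ P.asIdeal ^ j ∧ x - 1 ∈ J := by
  have hc : IsCoprime (P.asIdeal ^ j) J := by
    refine IsCoprime.pow_left (Ideal.isCoprime_iff_sup_eq.mpr ?_)
    exact ((P.isPrime.isMaximal P.ne_bot).out).2 _ (lt_of_le_of_ne le_sup_left fun he =>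
      hJP (le_sup_right.trans he.ge))
  obtain ⟨u, hu, w, hw, huw⟩ := Ideal.isCoprime_iff_exists.mp hc
  refine ⟨a * w + u, ?_, ?_⟩
  · rw [show a * w + u - a = u * (1 - a) by linear_combination a * huw]
    exact Ideal.mul_mem_right _ _ hu
  · rw [show a * w + u - 1 = w * (a - 1) by linear_combination huw]
    exact Ideal.mul_mem_right _ _ hw

include hJ hJP in
theorem exists_dvd_of_mem_pow {x : S} (hx : x ∈ P.asIdeal ^ k) :
    ∃ e : S, e ∉ P.asIdeal ∧ (n : S) ∣ e * x := by
  obtain ⟨e, he, heP⟩ := SetLike.not_le_iff_exists.mp hJP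
  refine ⟨e, heP, Ideal.mem_span_singleton.mp ?_⟩
  rw [hJ, mul_comm e]
  exact Ideal.mul_mem_mul hx he

include hJ in
theorem exists_dvd_of_mem {x : S} (hx : x ∈ J) {Q : HeightOneSpectrum S} (hQ : Q ≠ P) :
    ∃ e : S, e ∉ Q.asIdeal ∧ (n : S) ∣ e * x := by
  have hnle : ¬ P.asIdeal ^ k ≤ Q.asIdeal := fun h => hQ (HeightOneSpectrum.ext
    ((P.isPrime.isMaximal P.ne_bot).eq_of_le Q.isPrime.ne_top (Q.isPrime.le_of_pow_le h)).symm)
  obtain ⟨e, he, heQ⟩ := SetLike.not_le_iff_exists.mp hnle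
  refine ⟨e, heQ, Ideal.mem_span_singleton.mp ?_⟩
  rw [hJ]
  exact Ideal.mul_mem_mul he hx

include hJ in
theorem le_span_of_dvd {M : ℕ} (hM : M ∣ n) (hMP : (M : S) ∉ P.asIdeal) :
    J ≤ Ideal.span {(M : S)} := by
  rw [← Ideal.dvd_iff_le]
  refine IsCoprime.dvd_of_dvd_mul_left (y := P.asIdeal ^ k) ?_ ?_
  · refine IsCoprime.pow_right (Ideal.isCoprime_iff_sup_eq.mpr ?_)
    rw [sup_comm]
    exact ((P.isPrime.isMaximal P.ne_bot).out).2 _ (lt_of_le_of_ne le_sup_left fun he =>
      hMP (le_sup_right.trans he.ge (Ideal.mem_span_singleton_self _)))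
  · rw [← hJ, Ideal.dvd_iff_le, Ideal.span_singleton_le_span_singleton]
    exact Nat.cast_dvd_cast hM

end splitting

end FLTAgent.LT.Recip
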