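import Mathlib

/-!
# A modulus separating given odd primes up to exponent a power of two
-/

set_option autoImplicit false

namespace FLTAgent.LT.Recip

theorem exists_nonsquare_zmod {l : ℕ} [Fact l.Prime] (hl2 : l ≠ 2) :
    ∃ x : ZMod l, x ≠ 0 ∧ ¬ IsSquare x := by
  obtain ⟨a, ha⟩ := FiniteField.exists_nonsquare (F := ZMod l) (by rwa [ZMod.ringChar_zmod_n])
  exact ⟨a, fun h => ha (h ▸ IsSquare.zero), ha⟩

/-- A prime `q ≡ 1 mod 2^k` at which exactly one of the given primes is not a square. -/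
theorem exists_sep_prime {ι : Type} [Fintype ι] [DecidableEq ι] (l : ι → ℕ) (hl : ∀ i, (l i).Prime)
    (h2 : ∀ i, l i ≠ 2) (hinj : Function.Injective l) (k : ℕ) (i : ι) :
    ∃ q : ℕ, q.Prime ∧ 2 ^ (k + 2) ∣ q - 1 ∧ (∀ j, l j ≠ q) ∧
      ¬ IsSquare ((l i : ℕ) : ZMod q) ∧ ∀ j, j ≠ i → IsSquare ((l j : ℕ) : ZMod q) := by
  have : Fact (l i).Prime := ⟨hl i⟩
  obtain ⟨u, hu0, hu⟩ := exists_nonsquare_zmod (h2 i)
  set P := 2 ^ (k + 2) * ∏ j ∈ Finset.univ.erase i, l j with hP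
  have hcop : (l i).Coprime P := by
    refine (hl i).coprime_iff_not_dvd.mpr fun hd => ?_
    rcases (hl i).dvd_mul.mp hd with h | h
    · exact h2 i ((Nat.prime_dvd_prime_iff_eq (hl i) Nat.prime_two).mp ((hl i).dvd_of_dvd_pow h))
    · obtain ⟨j, hj, hd'⟩ := ((hl i).prime.dvd_finsetProd_iff l).mp h
      exact (Finset.mem_erase.mp hj).1 (hinj ((Nat.prime_dvd_prime_iff_eq (hl i) (hl j)).mp hd')).symm
  obtain ⟨x, hxi, hxP⟩ := Nat.chineseRemainder hcop u.val 1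
  set N := l i * P
  have hN0 : N ≠ 0 := mul_ne_zero (hl i).ne_zero
    (mul_ne_zero (pow_ne_zero _ two_ne_zero) (Finset.prod_ne_zero_iff.mpr fun j _ => (hl j).ne_zero))
  have : NeZero N := ⟨hN0⟩
  have hxu : ((x : ℕ) : ZMod (l i)) = u := by
    rw [(ZMod.natCast_eq_natCast_iff _ _ _).mpr hxi, ZMod.natCast_zmod_val]
  have hxcop : x.Coprime N := by
    refine Nat.Coprime.mul_right ?_ ?_
    · refine ((hl i).coprime_iff_not_dvd.mpr fun hd => hu0 ?_).symm
      rw [← hxu, ZMod.natCast_eq_zero_iff]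
      exact hd
    · rw [Nat.coprime_iff_gcd_eq_one, hxP.gcd_eq, Nat.gcd_one_left]
  obtain ⟨q, hq, hqp, hqx⟩ := Nat.forall_exists_prime_gt_and_eq_mod
    (a := (x : ZMod N)) ((ZMod.isUnit_iff_coprime x N).mpr hxcop) (Finset.univ.sup l + 2)
  have hmod : q ≡ x [MOD N] := (ZMod.natCast_eq_natCast_iff _ _ _).mp hqx
  have hqu : ((q : ℕ) : ZMod (l i)) = u := by
    rw [← hxu, ZMod.natCast_eq_natCast_iff]
    exact hmod.of_dvd (dvd_mul_right _ _)
  have hq1 : q ≡ 1 [MOD P] := (hmod.of_dvd (dvd_mul_left _ _)).trans hxP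
  have hq1' : ∀ d, d ∣ P → ((q : ℕ) : ZMod d) = 1 := fun d hd => by
    rw [← Nat.cast_one, ZMod.natCast_eq_natCast_iff]
    exact hq1.of_dvd hd
  have h4 : q % 4 = 1 := (hq1.of_dvd ((dvd_mul_of_dvd_left (⟨2 ^ k, by ring⟩ : 4 ∣ 2 ^ (k + 2)) _)))
  have : Fact q.Prime := ⟨hqp⟩
  have hle : ∀ j, l j < q := fun j =>
    lt_of_le_of_lt ((Finset.le_sup (Finset.mem_univ j)).trans (Nat.le_add_right _ _)) hq
  have hdvd : 2 ^ (k + 2) ∣ q - 1 :=
    (Nat.modEq_iff_dvd' hqp.one_le).mp ((hq1.of_dvd (dvd_mul_right _ _))).symm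
  refine ⟨q, hqp, hdvd, fun j => (hle j).ne, ?_, fun j hj => ?_⟩
  · rw [ZMod.exists_sq_eq_prime_iff_of_mod_four_eq_one h4 (h2 i), hqu]
    exact hu
  · have : Fact (l j).Prime := ⟨hl j⟩
    rw [ZMod.exists_sq_eq_prime_iff_of_mod_four_eq_one h4 (h2 j),
      hq1' (l j) (dvd_mul_of_dvd_right (Finset.dvd_prod_of_mem l
        (Finset.mem_erase.mpr ⟨hj, Finset.mem_univ j⟩)) _)]
    exact IsSquare.one

theorem isSquare_of_pow_eq_one {q : ℕ} [Fact q.Prime] {y : ZMod q} {d : ℕ} (hd : 2 * d ∣ q - 1)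
    (hy : y ^ d = 1) : IsSquare y := by
  rcases eq_or_ne y 0 with rfl | hy0
  · exact IsSquare.zero
  rw [ZMod.euler_criterion q hy0]
  obtain ⟨e, he⟩ := hd
  have hq2 : q / 2 = (q - 1) / 2 := by
    have := (Fact.out : q.Prime).two_le
    have : 2 ∣ q - 1 := ⟨d * e, by rw [he, mul_assoc]⟩
    omega
  rw [hq2, he, mul_assoc, Nat.mul_div_cancel_left _ two_pos, pow_mul, hy, one_pow]

theorem isSquare_prod_pow {q : ℕ} {ι : Type} [DecidableEq ι] (s : Finset ι) (f : ι → ZMod q)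
    (e : ι → ℕ) (h : ∀ j ∈ s, IsSquare (f j) ∨ Even (e j)) : IsSquare (∏ j ∈ s, f j ^ e j) := by
  induction s using Finset.induction with
  | empty => simp
  | insert a s ha ih =>
    rw [Finset.prod_insert ha]
    refine IsSquare.mul ?_ (ih fun j hj => h j (Finset.mem_insert_of_mem hj))
    rcases h a (Finset.mem_insert_self a s) with h' | h'
    · exact h'.pow _
    · exact h'.isSquare_pow _

/-- A modulus modulo which relations between the given primes are trivial up to `2 ^ (k + 1)`. -/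
theorem exists_sep_modulus {ι : Type} [Fintype ι] (l : ι → ℕ) (hl : ∀ i, (l i).Prime)
    (h2 : ∀ i, l i ≠ 2) (hinj : Function.Injective l) (k : ℕ) :
    ∃ M : ℕ, M ≠ 0 ∧ (∀ i, ¬ l i ∣ M) ∧
      ∀ a : ι → ℕ, ((∏ i, l i ^ a i : ℕ) : ZMod M) = 1 → ∀ i, 2 ^ (k + 1) ∣ a i := by
  classical
  choose q hqp hqd hql hns hsq using fun i => exists_sep_prime l hl h2 hinj k i
  refine ⟨∏ i, q i, Finset.prod_ne_zero_iff.mpr fun i _ => (hqp i).ne_zero, fun i hd => ?_,
    fun a ha => ?_⟩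
  · obtain ⟨j, -, hj⟩ := ((hl i).prime.dvd_finsetProd_iff q).mp hd
    exact hql j i ((Nat.prime_dvd_prime_iff_eq (hl i) (hqp j)).mp hj)
  have haq : ∀ i, ∏ j, ((l j : ℕ) : ZMod (q i)) ^ a j = 1 := fun i => by
    have h := congrArg (ZMod.castHom (Finset.dvd_prod_of_mem q (Finset.mem_univ i)) (ZMod (q i))) ha
    rw [map_one, map_natCast] at h
    simpa using h
  suffices h : ∀ j, j ≤ k + 1 → ∀ i, 2 ^ j ∣ a i from h (k + 1) le_rfl
  intro j
  induction j with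
  | zero => intro _ i; simp
  | succ j ih =>
    intro hj i
    choose e he using ih (by omega)
    have : Fact (q i).Prime := ⟨hqp i⟩
    have hne : ∀ t, ((l t : ℕ) : ZMod (q i)) ≠ 0 := fun t h => by
      rw [ZMod.natCast_eq_zero_iff, Nat.prime_dvd_prime_iff_eq (hqp i) (hl t)] at h
      exact hql i t h.symm
    set y := ∏ t, ((l t : ℕ) : ZMod (q i)) ^ e t with hy
    have hy1 : y ^ 2 ^ j = 1 := by
      rw [← haq i, hy, ← Finset.prod_pow]
      exact Finset.prod_congr rfl fun t _ => by rw [← pow_mul, he t, mul_comm]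
    have hys : IsSquare y := by
      refine isSquare_of_pow_eq_one ?_ hy1
      exact (Dvd.intro _ (show 2 * 2 ^ j * 2 ^ (k + 1 - j) = 2 ^ (k + 2) by
        rw [← pow_succ', ← pow_add]
        congr 1
        omega)).trans (hqd i)
    suffices heven : Even (e i) by
      obtain ⟨c, hc⟩ := heven
      exact ⟨c, by rw [he i, hc, pow_succ]; ring⟩
    by_contra hodd
    rw [Nat.not_even_iff_odd] at hodd
    obtain ⟨c, hc⟩ := hodd
    refine hns i ?_
    rw [hy, ← Finset.mul_prod_erase _ _ (Finset.mem_univ i), hc, pow_succ, mul_assoc] at hys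
    have hrest : IsSquare (∏ t ∈ Finset.univ.erase i, ((l t : ℕ) : ZMod (q i)) ^ e t) :=
      isSquare_prod_pow _ _ _ fun t ht => Or.inl (hsq i t (Finset.mem_erase.mp ht).1)
    have h1 : IsSquare (((l i : ℕ) : ZMod (q i)) ^ (2 * c)) := (even_two_mul c).isSquare_pow _
    have hne1 : ((l i : ℕ) : ZMod (q i)) ^ (2 * c) ≠ 0 := pow_ne_zero _ (hne i)
    have hne2 : (∏ t ∈ Finset.univ.erase i, ((l t : ℕ) : ZMod (q i)) ^ e t) ≠ 0 :=
      Finset.prod_ne_zero_iff.mpr fun t _ => pow_ne_zero _ (hne t)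
    have h2' := (hys.div h1).div hrest
    rwa [mul_div_cancel_left₀ _ hne1, mul_div_cancel_right₀ _ hne2] at h2'

end FLTAgent.LT.Recip
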