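import Fermat.Agent.TW.NormChar.Cyclo
import Fermat.Agent.LT.Recip.SepModulus

/-!
# The square of the cyclotomic character modulo `M`

Squaring makes the value at `x` and at `-x` agree, so that it is a function of absolute norms.
-/

set_option autoImplicit false

open scoped Pointwise

noncomputable section

namespace FLTAgent.LT.Recip

open FLTAgent.TW FLTAgent.Frobenius

/-- The value group of the cyclotomic character modulo `M`. -/
abbrev CycGrp (M : ℕ) : Type := Additive (ZMod M)ˣ

/-- The square of a residue class prime to `M`. -/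
def cycVal (M x : ℕ) : CycGrp M :=
  if h : x.Coprime M then Additive.ofMul (ZMod.unitOfCoprime x h ^ 2) else 0

theorem cycVal_of_coprime {M x : ℕ} (h : x.Coprime M) :
    cycVal M x = Additive.ofMul (ZMod.unitOfCoprime x h ^ 2) :=
  dif_pos h

theorem cycVal_mul {M : ℕ} (x y : ℕ) (hx : x.Coprime M) (hy : y.Coprime M) :
    cycVal M (x * y) = cycVal M x + cycVal M y := by
  rw [cycVal_of_coprime hx, cycVal_of_coprime hy, cycVal_of_coprime (hx.mul_left hy), ← ofMul_mul,
    ← mul_pow]
  refine congrArg Additive.ofMul (congrArg (· ^ 2) (Units.ext ?_))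
  simp

theorem cycVal_one_mod {M : ℕ} (x : ℤ) (hx : (M : ℤ) ∣ x - 1) : cycVal M x.natAbs = 0 := by
  rw [cycVal]
  split_ifs with hc
  swap
  · rfl
  have hx1 : (x : ZMod M) = 1 := by
    have h := (ZMod.intCast_zmod_eq_zero_iff_dvd (x - 1) M).mpr hx
    push_cast at h
    exact sub_eq_zero.mp h
  have hu : (ZMod.unitOfCoprime x.natAbs hc : ZMod M) ^ 2 = 1 := by
    rw [ZMod.coe_unitOfCoprime]
    rcases Int.natAbs_eq x with h | h
    · rw [h] at hx1
      rw [show ((x.natAbs : ℕ) : ZMod M) = 1 by simpa using hx1, one_pow]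
    · rw [h, Int.cast_neg, Int.cast_natCast] at hx1
      rw [neg_eq_iff_eq_neg.mp hx1, neg_one_sq]
  rw [← ofMul_one]
  exact congrArg Additive.ofMul (Units.ext (by rw [Units.val_pow_eq_pow_val, hu, Units.val_one]))

theorem nsmul_cycVal {M : ℕ} {x : ℕ} (hx : x.Coprime M) (a : ℕ) :
    a • cycVal M x = cycVal M (x ^ a) := by
  induction a with
  | zero =>
    rw [zero_nsmul, pow_zero, cycVal_of_coprime (Nat.coprime_one_left M), ← ofMul_one]
    refine congrArg Additive.ofMul (Units.ext ?_)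
    simp
  | succ a ih => rw [succ_nsmul, ih, pow_succ, cycVal_mul _ _ (hx.pow_left a) hx]

theorem cycVal_eq_zero_iff {M x : ℕ} (hx : x.Coprime M) :
    cycVal M x = 0 ↔ ((x ^ 2 : ℕ) : ZMod M) = 1 := by
  rw [cycVal_of_coprime hx, ← ofMul_one, Additive.ofMul.injective.eq_iff, Units.ext_iff,
    Units.val_pow_eq_pow_val, ZMod.coe_unitOfCoprime, Units.val_one, Nat.cast_pow]

/-- Exponents of a primitive root are determined modulo its order. -/
theorem natCast_eq_of_pow_eq {R : Type} [CommMonoid R] {ζ : R} {M : ℕ} [NeZero M]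
    (hζ : IsPrimitiveRoot ζ M) {a b : ℕ} (h : ζ ^ a = ζ ^ b) : ((a : ℕ) : ZMod M) = b := by
  rw [← pow_mod_orderOf _ a, ← pow_mod_orderOf _ b, ← hζ.eq_orderOf] at h
  rw [ZMod.natCast_eq_natCast_iff']
  exact hζ.pow_inj (Nat.mod_lt _ (NeZero.pos M)) (Nat.mod_lt _ (NeZero.pos M)) h

variable (M : ℕ) [NeZero M]

/-- A fixed primitive root of unity of order `M`. -/
def cycRoot : Qb := (HasEnoughRootsOfUnity.exists_primitiveRoot Qb M).choose

theorem cycRoot_spec : IsPrimitiveRoot (cycRoot M) M :=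
  (HasEnoughRootsOfUnity.exists_primitiveRoot Qb M).choose_spec

/-- The square of the cyclotomic character. -/
def cycHom : Γ →* Multiplicative (CycGrp M) where
  toFun σ := Multiplicative.ofAdd (Additive.ofMul ((cycRoot_spec M).autToPow ℚ σ ^ 2))
  map_one' := by rw [map_one, one_pow]; rfl
  map_mul' σ τ := by rw [map_mul, mul_pow]; rfl

/-- The cyclotomic field. -/
def cycField : IntermediateField ℚ Qb := IntermediateField.adjoin ℚ {cycRoot M}

theorem finiteDimensional_cycField : FiniteDimensional ℚ (cycField M) :=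
  IntermediateField.adjoin.finiteDimensional ((qb_isAlgebraic).isAlgebraic (cycRoot M)).isIntegral

theorem cycField_fixingSubgroup_le : (cycField M).fixingSubgroup ≤ (cycHom M).ker := by
  intro σ hσ
  have hfix : σ (cycRoot M) = cycRoot M :=
    apply_eq_of_mem_fixing hσ (IntermediateField.mem_adjoin_simple_self ℚ (cycRoot M))
  show Multiplicative.ofAdd (Additive.ofMul ((cycRoot_spec M).autToPow ℚ σ ^ 2)) = 1
  have h := (cycRoot_spec M).autToPow_spec ℚ σ
  rw [hfix] at h
  have h1 : ((cycRoot_spec M).autToPow ℚ σ : ZMod M) = 1 := by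
    conv_rhs at h => rw [← pow_one (cycRoot M)]
    rw [← ZMod.natCast_zmod_val ((cycRoot_spec M).autToPow ℚ σ : ZMod M),
      natCast_eq_of_pow_eq (cycRoot_spec M) h, Nat.cast_one]
  rw [show (cycRoot_spec M).autToPow ℚ σ = 1 from Units.ext (by rw [h1, Units.val_one]), one_pow]
  rfl

variable {M}

/-- A Frobenius element of any residue degree acts by the order of the residue field. -/
theorem frobenius_root_pow {A : ValuationSubring Qb} {l m q : ℕ} (hl : l.Prime)
    (hA : A.LiesOverPrime l) {φ : Γ} (hq : 0 < q) (hφ : A.IsFrobeniusAt φ q) (hm0 : 0 < m)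
    (hm : ¬ l ∣ m) {ζ : Qb} (hζ : ζ ^ m = 1) : φ ζ = ζ ^ q := by
  set x : Zbar := NormChar.rootZbar hm0
    (NormChar.isIntegral_pow_of_eq_natCast (n := 1) (by simpa using hζ))
  have hx : x ^ m = 1 := Subtype.ext (by simpa [x, NormChar.rootZbar] using hζ)
  have hy : (φ • x) ^ m = 1 := by rw [← smul_pow', hx, smul_one]
  have hxl : (x ^ q) ^ m = 1 := by rw [← pow_mul, mul_comm, pow_mul, hx, one_pow]
  have hinv : x ^ q * (x ^ q) ^ (m - 1) = 1 := by
    rw [← pow_succ', Nat.sub_add_cancel hm0, hxl]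
  have h := NormChar.eq_one_of_sub_one_mem (A := A) (z := φ • x * (x ^ q) ^ (m - 1)) (m := m)
    (by rw [mul_pow, hy, one_mul, ← pow_mul, mul_comm, pow_mul, hxl, one_pow])
    (by
      rw [show φ • x * (x ^ q) ^ (m - 1) - 1 = (φ • x - x ^ q) * (x ^ q) ^ (m - 1) by
        rw [sub_mul, hinv]]
      exact Ideal.mul_mem_right _ _ ((isFrobeniusAt_iff_centre hq).mp hφ x))
    (NormChar.natCast_notMem_centre hl hA hm)
  have h2 : φ • x = x ^ q := by
    calc φ • x = φ • x * (x ^ q * (x ^ q) ^ (m - 1)) := by rw [hinv, mul_one]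
      _ = x ^ q * (φ • x * (x ^ q) ^ (m - 1)) := by ring
      _ = x ^ q := by rw [h, mul_one]
  exact congrArg Subtype.val h2

theorem cycHom_frobenius {A : ValuationSubring Qb} {l f : ℕ} (hl : l.Prime)
    (hA : A.LiesOverPrime l) {φ : Γ} (hφ : A.IsFrobeniusAt φ (l ^ f)) (hlM : ¬ l ∣ M) :
    cycHom M φ = Multiplicative.ofAdd (cycVal M (l ^ f)) := by
  have hc : (l ^ f).Coprime M := ((hl.coprime_iff_not_dvd).mpr hlM).pow_left f
  rw [cycVal_of_coprime hc]
  refine congrArg Multiplicative.ofAdd (congrArg Additive.ofMul (congrArg (· ^ 2) (Units.ext ?_)))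
  have h := frobenius_root_pow hl hA (pow_pos hl.pos f) hφ (NeZero.pos M) hlM
    (cycRoot_spec M).pow_eq_one
  rw [← (cycRoot_spec M).autToPow_spec ℚ φ] at h
  rw [ZMod.coe_unitOfCoprime, ← ZMod.natCast_zmod_val ((cycRoot_spec M).autToPow ℚ φ : ZMod M),
    natCast_eq_of_pow_eq (cycRoot_spec M) h]

omit [NeZero M] in
/-- A modulus in which given odd primes are independent up to `2 ^ (k + 1)`. -/
theorem exists_cycVal_independent {ι : Type} [Fintype ι] (l : ι → ℕ) (hl : ∀ i, (l i).Prime)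
    (h2 : ∀ i, l i ≠ 2) (hinj : Function.Injective l) (k : ℕ) :
    ∃ M : ℕ, M ≠ 0 ∧ (∀ i, ¬ l i ∣ M) ∧
      ∀ a : ι → ℕ, ∑ i, a i • cycVal M (l i) = 0 → ∀ i, 2 ^ (k + 1) ∣ a i := by
  obtain ⟨M, hM, hlM, hsep⟩ := exists_sep_modulus l hl h2 hinj (k + 1)
  refine ⟨M, hM, hlM, fun a ha i => ?_⟩
  have hc : ∀ i, (l i).Coprime M := fun i => (hl i).coprime_iff_not_dvd.mpr (hlM i)
  have key : ∀ s : Finset ι, ∑ i ∈ s, a i • cycVal M (l i) = cycVal M (∏ i ∈ s, l i ^ a i) := by
    classical
    intro s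
    induction s using Finset.induction with
    | empty =>
      rw [Finset.sum_empty, Finset.prod_empty, ← zero_nsmul (cycVal M 1),
        nsmul_cycVal (Nat.coprime_one_left M), pow_zero]
    | insert t s ht ih =>
      rw [Finset.sum_insert ht, ih, Finset.prod_insert ht, nsmul_cycVal (hc t),
        cycVal_mul _ _ ((hc t).pow_left _)
          (Nat.Coprime.prod_left fun j _ => (hc j).pow_left _)]
  rw [key, cycVal_eq_zero_iff (Nat.Coprime.prod_left fun j _ => (hc j).pow_left _)] at ha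
  have hp : (∏ i, l i ^ a i) ^ 2 = ∏ i, l i ^ (2 * a i) := by
    rw [← Finset.prod_pow]
    exact Finset.prod_congr rfl fun j _ => by rw [← pow_mul, mul_comm]
  rw [hp] at ha
  have h := hsep (fun j => 2 * a j) ha i
  rw [pow_succ'] at h
  exact Nat.dvd_of_mul_dvd_mul_left two_pos h

end FLTAgent.LT.Recip
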