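import Fermat.Agent.LT.Recip.SplitField
import Fermat.Agent.TW.RayL.Kernel

/-!
# Artin reciprocity with the conductor supported on the ramified places
-/

set_option autoImplicit false
set_option linter.unusedSectionVars false

open IsDedekindDomain NumberField UniqueFactorizationMonoid
open scoped Pointwise

noncomputable section

namespace FLTAgent.LT.Recip

open FLTAgent.TW FLTAgent.Frobenius FLTAgent.TW.RayL

local instance : IsGalois ℚ Qb := qb_isGalois

/-! ### Congruences at a place -/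

section near

variable {K : IntermediateField ℚ Qb} [FiniteDimensional ℚ K] {v : Ext.Place K} {n : ℕ}

theorem NearAt.mem_iff (hn : (n : 𝓞 K) ∈ v.asIdeal) {x y : 𝓞 K} (h : NearAt v n x y) :
    x - y ∈ v.asIdeal := by
  obtain ⟨t, ht, hd⟩ := h
  exact (v.isPrime.mem_or_mem (Ideal.mem_of_dvd _ hd hn)).resolve_left ht

theorem NearAt.of_mem_span {x y : 𝓞 K} (h : x - y ∈ Ideal.span {(n : 𝓞 K)}) : NearAt v n x y :=
  ⟨1, (Ideal.ne_top_iff_one _).mp v.isPrime.ne_top, by
    rw [one_mul]; exact Ideal.mem_span_singleton.mp h⟩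

theorem NearAt.mul {x y x' y' : 𝓞 K} (h : NearAt v n x y) (h' : NearAt v n x' y') :
    NearAt v n (x * x') (y * y') := by
  obtain ⟨s, hs, hd⟩ := h
  obtain ⟨s', hs', hd'⟩ := h'
  refine ⟨s * s', fun hm => (v.isPrime.mem_or_mem hm).elim hs hs', ?_⟩
  rw [show s * s' * (x * x' - y * y') = s' * x' * (s * (x - y)) + s * y * (s' * (x' - y')) by ring]
  exact dvd_add (hd.mul_left _) (hd'.mul_left _)

theorem NearAt.trans {x y z : 𝓞 K} (h : NearAt v n x y) (h' : NearAt v n y z) : NearAt v n x z := by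
  obtain ⟨s, hs, hd⟩ := h
  obtain ⟨s', hs', hd'⟩ := h'
  refine ⟨s * s', fun hm => (v.isPrime.mem_or_mem hm).elim hs hs', ?_⟩
  rw [show s * s' * (x - z) = s' * (s * (x - y)) + s * (s' * (y - z)) by ring]
  exact dvd_add (hd.mul_left _) (hd'.mul_left _)

theorem NearAt.symm {x y : 𝓞 K} (h : NearAt v n x y) : NearAt v n y x := by
  obtain ⟨s, hs, hd⟩ := h
  exact ⟨s, hs, by rw [← neg_sub, mul_neg]; exact hd.neg_right⟩

/-- The congruences at a set of places, as an ideal. -/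
def nearIdeal (n : ℕ) (W : Set (Ext.Place K)) : Ideal (𝓞 K) where
  carrier := {x | ∀ v ∈ W, ∃ t, t ∉ v.asIdeal ∧ (n : 𝓞 K) ∣ t * x}
  zero_mem' v _ := ⟨1, (Ideal.ne_top_iff_one _).mp v.isPrime.ne_top, by simp⟩
  add_mem' {a b} ha hb v hv := by
    obtain ⟨s, hs, hd⟩ := ha v hv
    obtain ⟨s', hs', hd'⟩ := hb v hv
    refine ⟨s * s', fun hm => (v.isPrime.mem_or_mem hm).elim hs hs', ?_⟩
    rw [show s * s' * (a + b) = s' * (s * a) + s * (s' * b) by ring]
    exact dvd_add (hd.mul_left _) (hd'.mul_left _)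
  smul_mem' c x hx v hv := by
    obtain ⟨s, hs, hd⟩ := hx v hv
    exact ⟨s, hs, by rw [smul_eq_mul, mul_left_comm]; exact hd.mul_left c⟩

theorem nearIdeal_le_iff {W : Set (Ext.Place K)} (hn : n ≠ 0)
    (hW : ∀ v ∈ W, (n : 𝓞 K) ∈ v.asIdeal) (v : Ext.Place K) :
    nearIdeal n W ≤ v.asIdeal ↔ v ∈ W := by
  refine ⟨fun hle => ?_, fun hv x hx => ?_⟩
  · by_contra hv
    obtain ⟨k, J, hJ, hJP⟩ := exists_prime_split v (S := 𝓞 K) (Nat.cast_ne_zero.mpr hn)
    obtain ⟨x, hx, hxv⟩ := SetLike.not_le_iff_exists.mp hJP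
    refine hxv (hle fun w hw => ?_)
    obtain ⟨e, he, hd⟩ := exists_dvd_of_mem hJ hx (Q := w) fun h => hv (h ▸ hw)
    exact ⟨e, he, hd⟩
  · obtain ⟨t, ht, hd⟩ := hx v hv
    exact (v.isPrime.mem_or_mem (Ideal.mem_of_dvd _ hd (hW v hv))).resolve_left ht

end near

variable {E : IntermediateField ℚ Qb} [FiniteDimensional ℚ E] {G : Type} [CommGroup G] [Finite G]
  {m : Ideal (𝓞 E)}

/-- The character is trivial on inertia at every valuation ring over `v`. -/
def Unr (π : E.fixingSubgroup →* G) (v : Ext.Place E) : Prop :=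
  ∀ (A : ValuationSubring Qb) (l : ℕ) (hl : l.Prime) (hA : A.LiesOverPrime l),
    placeIn E A hl hA = v → ∀ g : E.fixingSubgroup, (g : Γ) ∈ A.inertiaSubgroupIn ℚ → π g = 1

variable (π : E.fixingSubgroup →* G)

theorem placeIn_eq_of_centre {A B : ValuationSubring Qb} {l l' : ℕ} {hl : l.Prime}
    {hA : A.LiesOverPrime l} {hl' : l'.Prime} {hB : B.LiesOverPrime l'}
    (h : placeIn E B hl' hB = placeIn E A hl hA) :
    ∃ g : E.fixingSubgroup, (g : Γ) • A = B := by
  obtain ⟨g, hg, he⟩ := exists_fix_smul_eq E (A := A) (B := B)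
    (congrArg HeightOneSpectrum.asIdeal h).symm
  exact ⟨⟨g, hg⟩, he⟩

theorem map_conj (g h : E.fixingSubgroup) : π (g * h * g⁻¹) = π h := by
  rw [map_mul, map_mul, map_inv, mul_comm (π g), mul_inv_cancel_right]

/-- Triviality on inertia at one valuation ring gives it at all of them over the place. -/
theorem unr_of_inertia {A : ValuationSubring Qb} {l : ℕ} (hl : l.Prime) (hA : A.LiesOverPrime l)
    (h : ∀ g : E.fixingSubgroup, (g : Γ) ∈ A.inertiaSubgroupIn ℚ → π g = 1) :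
    Unr π (placeIn E A hl hA) := by
  intro B l' hl' hB he g hg
  obtain ⟨c, hc⟩ := placeIn_eq_of_centre he
  have h1 := inertiaSubgroupIn_conj hg (c⁻¹ : E.fixingSubgroup)
  rw [show ((c⁻¹ : E.fixingSubgroup) : Γ) • B = A by rw [← hc, Subgroup.coe_inv, inv_smul_smul]]
    at h1
  have h2 := h (c⁻¹ * g * (c⁻¹)⁻¹) h1
  rwa [map_conj] at h2

theorem exists_frobVal {v : Ext.Place E} (hv : Unr π v) :
    ∃ x : G, ∀ (A : ValuationSubring Qb) (l : ℕ) (hl : l.Prime) (hA : A.LiesOverPrime l),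
      placeIn E A hl hA = v → ∀ σ : E.fixingSubgroup,
        A.IsFrobeniusAt (σ : Γ) (Nat.card (𝓞 E ⧸ v.asIdeal)) → π σ = x := by
  obtain ⟨l, hl, hlv⟩ := exists_prime_mem v
  obtain ⟨A, hA, rfl⟩ := exists_placeIn E v hl hlv
  obtain ⟨σ₀, hσ₀E, hσ₀⟩ := exists_frobenius_fixing (K := E) hl hA
  refine ⟨π ⟨σ₀, hσ₀E⟩, fun B l' hl' hB he σ hσ => ?_⟩
  obtain ⟨c, hc⟩ := placeIn_eq_of_centre he
  have hq : 0 < Nat.card (𝓞 E ⧸ (placeIn E A hl hA).asIdeal) :=
    zero_lt_one.trans (one_lt_natCard_residue hl hA)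
  generalize Nat.card (𝓞 E ⧸ (placeIn E A hl hA).asIdeal) = q at hq hσ₀ hσ ⊢
  have h1 : B.IsFrobeniusAt ((c * ⟨σ₀, hσ₀E⟩ * c⁻¹ : E.fixingSubgroup) : Γ) q := by
    rw [← hc, Subgroup.coe_mul, Subgroup.coe_mul, Subgroup.coe_inv]
    exact isFrobeniusAt_conj hq hσ₀ (c : Γ)
  have hI : ∀ g : E.fixingSubgroup, (g : Γ) ∈ B.inertiaSubgroupIn ℚ → π g = 1 :=
    hv B l' hl' hB he
  have h2 : π (c * ⟨σ₀, hσ₀E⟩ * c⁻¹) = π σ := map_frobenius_eq (A := B) π hq hI h1 hσ
  exact (h2.symm.trans (map_conj π c ⟨σ₀, hσ₀E⟩))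

open scoped Classical in
/-- The value at a prime. -/
def primeVal (P : Ideal (𝓞 E)) : Additive G :=
  if h : ∃ v : Ext.Place E, v.asIdeal = P ∧ Unr π v then
    Additive.ofMul (exists_frobVal π h.choose_spec.2).choose else 0

/-- The completely additive extension to all ideals. -/
def idealVal (I : Ideal (𝓞 E)) : Additive G := ((normalizedFactors I).map (primeVal π)).sum

theorem idealVal_mul {I J : Ideal (𝓞 E)} (hI : I ≠ ⊥) (hJ : J ≠ ⊥) :
    idealVal π (I * J) = idealVal π I + idealVal π J := by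
  rw [idealVal, normalizedFactors_mul hI hJ, Multiset.map_add, Multiset.sum_add]
  rfl

theorem idealVal_place (v : Ext.Place E) : idealVal π v.asIdeal = primeVal π v.asIdeal := by
  rw [idealVal, normalizedFactors_irreducible
    (Ideal.prime_of_isPrime v.ne_bot v.isPrime).irreducible, normalize_eq]
  simp

theorem idealVal_one : idealVal π (1 : Ideal (𝓞 E)) = 0 := by
  rw [idealVal, normalizedFactors_one, Multiset.map_zero, Multiset.sum_zero]

theorem primeVal_eq {A : ValuationSubring Qb} {l : ℕ} (hl : l.Prime) (hA : A.LiesOverPrime l)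
    (hv : Unr π (placeIn E A hl hA)) (σ : E.fixingSubgroup)
    (hσ : A.IsFrobeniusAt (σ : Γ) (Nat.card (𝓞 E ⧸ (placeIn E A hl hA).asIdeal))) :
    primeVal π (placeIn E A hl hA).asIdeal = Additive.ofMul (π σ) := by
  classical
  have hex : ∃ v : Ext.Place E, v.asIdeal = (placeIn E A hl hA).asIdeal ∧ Unr π v :=
    ⟨_, rfl, hv⟩
  rw [primeVal, dif_pos hex]
  refine congrArg Additive.ofMul ?_
  have he : hex.choose = placeIn E A hl hA := HeightOneSpectrum.ext hex.choose_spec.1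
  exact ((exists_frobVal π hex.choose_spec.2).choose_spec A l hl hA he.symm σ
    (by rw [he]; exact hσ)).symm

/-- The places dividing a modulus where the character is ramified. -/
def ramSet (N : ℕ) : Set (Ext.Place E) := {v | (N : 𝓞 E) ∈ v.asIdeal ∧ ¬ Unr π v}

variable {π} {ω : RayHom m (Additive G)} (D : ArtinData π ω)

local notation "NN" => Ideal.absNorm m

include D

theorem isCoprime_span_m {I : Ideal (𝓞 E)}
    (h : IsCoprime I (Ideal.span {((NN : ℕ) : 𝓞 E)})) : IsCoprime I m := by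
  rw [Ideal.isCoprime_iff_exists] at h ⊢
  obtain ⟨i, hi, j, hj, hij⟩ := h
  exact ⟨i, hi, j, (Ideal.span_singleton_le_iff_mem _).mpr (Ideal.absNorm_mem m) hj, hij⟩

theorem unr_of_notMem {v : Ext.Place E} (hv : ((NN : ℕ) : 𝓞 E) ∉ v.asIdeal) : Unr π v := by
  intro A l hl hA he g hg
  refine D.unramified A l hl hA (fun hd => hv ?_) g hg
  subst he
  obtain ⟨c, hc⟩ := hd
  rw [hc, Nat.cast_mul]
  exact Ideal.mul_mem_right _ _ natCast_mem_placeIn

/-- The extension agrees with the ray character. -/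
theorem idealVal_eq : ∀ I : Ideal (𝓞 E), I ≠ ⊥ →
    IsCoprime I (Ideal.span {((NN : ℕ) : 𝓞 E)}) → idealVal π I = ω.toFun I := by
  intro I
  induction I using UniqueFactorizationMonoid.induction_on_prime with
  | h₁ => exact fun h => absurd rfl h
  | h₂ I hI =>
    intro _ _
    rw [Ideal.isUnit_iff.mp hI, ← Ideal.one_eq_top, idealVal_one, rayHom_map_one]
  | h₃ a p ha hp ih =>
    intro _ hc
    have hv := hc.of_mul_left_left
    have ha' := hc.of_mul_left_right
    let v : Ext.Place E := ⟨p, Ideal.isPrime_of_prime hp, hp.ne_zero⟩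
    rw [idealVal_mul π hp.ne_zero ha,
      ω.map_mul p a hp.ne_zero ha (isCoprime_span_m D hv) (isCoprime_span_m D ha'), ih ha ha']
    refine congrArg (· + ω.toFun a) ?_
    show idealVal π v.asIdeal = ω.toFun v.asIdeal
    have hNv : ((NN : ℕ) : 𝓞 E) ∉ v.asIdeal := fun h => by
      refine v.isPrime.ne_top ?_
      rw [← Ideal.isCoprime_iff_sup_eq.mp hv, sup_eq_left.mpr]
      exact (Ideal.span_singleton_le_iff_mem _).mpr h
    obtain ⟨l, hl, hlv⟩ := exists_prime_mem v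
    obtain ⟨A, hA, he⟩ := exists_placeIn E v hl hlv
    rw [← he] at hNv hlv ⊢
    obtain ⟨σ, hσE, hσ⟩ := exists_frobenius_fixing (K := E) hl hA
    have hlN : ¬ l ∣ NN := fun hd => hNv (by
      obtain ⟨c, hc⟩ := hd
      rw [hc, Nat.cast_mul]
      exact Ideal.mul_mem_right _ _ natCast_mem_placeIn)
    rw [idealVal_place, primeVal_eq π hl hA (unr_of_notMem D hNv) ⟨σ, hσE⟩ hσ,
      value_of_not_dvd D hl hA hlN ⟨σ, hσE⟩ hσ]

omit D in
theorem isCoprime_span_of_forall {I : Ideal (𝓞 E)} {n : ℕ}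
    (h : ∀ v : Ext.Place E, (n : 𝓞 E) ∈ v.asIdeal → ¬ I ≤ v.asIdeal) :
    IsCoprime I (Ideal.span {(n : 𝓞 E)}) := by
  rw [Ideal.isCoprime_iff_sup_eq]
  by_contra hne
  obtain ⟨P, hP, hle⟩ := Ideal.exists_le_maximal _ hne
  have hIP : I ≤ P := le_sup_left.trans hle
  rcases eq_or_ne P ⊥ with rfl | hP0
  · exact Ring.ne_bot_of_isMaximal_of_not_isField hP (RingOfIntegers.not_isField E) rfl
  · exact h ⟨P, hP.isPrime, hP0⟩ (le_sup_right.trans hle (Ideal.mem_span_singleton_self _)) hIP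

/-- Elements congruent to `1` at the ramified places, prime to the modulus, have trivial value. -/
theorem value_span_eq_zero (W : Finset (Ext.Place E)) : ∀ a : 𝓞 E,
    (∀ v : Ext.Place E, ((NN : ℕ) : 𝓞 E) ∈ v.asIdeal → a ∉ v.asIdeal) →
    (∀ v ∈ W, ((NN : ℕ) : 𝓞 E) ∈ v.asIdeal ∧ Unr π v) →
    (∀ v : Ext.Place E, ((NN : ℕ) : 𝓞 E) ∈ v.asIdeal → v ∉ W → NearAt v NN a 1) →
    ω.toFun (Ideal.span {a}) = 0 := by
  classical
  have hN : NN ≠ 0 := mt Ideal.absNorm_eq_zero_iff.mp D.ne_bot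
  have hcop : ∀ a : 𝓞 E, (∀ v : Ext.Place E, ((NN : ℕ) : 𝓞 E) ∈ v.asIdeal → a ∉ v.asIdeal) →
      IsCoprime (Ideal.span {a}) (Ideal.span {((NN : ℕ) : 𝓞 E)}) := fun a ha =>
    isCoprime_span_of_forall fun v hv hle => ha v hv (hle (Ideal.mem_span_singleton_self a))
  induction W using Finset.induction with
  | empty =>
    intro a ha _ hnear
    have hmem : a - 1 ∈ Ideal.span {((NN : ℕ) : 𝓞 E)} := by
      let C : Ideal (𝓞 E) :=
        Submodule.colon (Ideal.span {((NN : ℕ) : 𝓞 E)}) ({a - 1} : Set (𝓞 E))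
      have hC : C = ⊤ := by
        by_contra hne
        obtain ⟨P, hP, hle⟩ := Ideal.exists_le_maximal _ hne
        have hNC : ((NN : ℕ) : 𝓞 E) ∈ C := by
          simp [C, Submodule.mem_colon_singleton, Ideal.mul_mem_right]
        have hP0 : P ≠ ⊥ := fun h => by
          have h' := hle hNC
          rw [h, Ideal.mem_bot] at h'
          exact Nat.cast_ne_zero.mpr hN h'
        obtain ⟨t, ht, hd⟩ := hnear ⟨P, hP.isPrime, hP0⟩ (hle hNC) (Finset.notMem_empty _)
        refine ht (hle ?_)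
        rw [Submodule.mem_colon_singleton, smul_eq_mul]
        exact Ideal.mem_span_singleton.mpr hd
      have h1 : (1 : 𝓞 E) ∈ C := hC ▸ Submodule.mem_top
      rwa [Submodule.mem_colon_singleton, one_smul] at h1
    rcases eq_or_ne a 0 with rfl | ha0
    · rw [Ideal.span_singleton_eq_bot.mpr rfl, ω.eq_zero ⊥ (Or.inl rfl)]
    · exact ω.map_ray a ha0 ((Ideal.span_singleton_le_iff_mem _).mpr (Ideal.absNorm_mem m) hmem)
  | insert v W hvW ih =>
    intro a ha hW hnear
    rcases eq_or_ne a 0 with rfl | ha0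
    · rw [Ideal.span_singleton_eq_bot.mpr rfl, ω.eq_zero ⊥ (Or.inl rfl)]
    obtain ⟨hNv, hunr⟩ := hW v (Finset.mem_insert_self v W)
    obtain ⟨i, hi, j, hj, hij⟩ := Ideal.isCoprime_iff_exists.mp (hcop a ha)
    obtain ⟨b, rfl⟩ := Ideal.mem_span_singleton'.mp hi
    have hab : a * b - 1 ∈ Ideal.span {((NN : ℕ) : 𝓞 E)} := by
      rw [show a * b - 1 = -j by linear_combination hij]
      exact neg_mem hj
    have hbv : b ∉ v.asIdeal := fun hb => v.isPrime.ne_top ((Ideal.eq_top_iff_one _).mpr (by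
      rw [← hij]
      exact add_mem (Ideal.mul_mem_right _ _ hb)
        ((Ideal.span_singleton_le_iff_mem _).mpr hNv hj)))
    obtain ⟨l, hl, hlv⟩ := exists_prime_mem v
    obtain ⟨A, hA, rfl⟩ := exists_placeIn E v hl hlv
    obtain ⟨σ, hσE, hσ⟩ := exists_frobenius_fixing (K := E) hl hA
    obtain ⟨R, _, _, _, M, hS⟩ :=
      exists_isSplit D hl hA (hunr A l hl hA rfl) ⟨σ, hσE⟩ hσ
    obtain ⟨z, hz, hz1, hzω⟩ := hS.exists_unit D hbv
    have hzN : ∀ w : Ext.Place E, ((NN : ℕ) : 𝓞 E) ∈ w.asIdeal → z ∉ w.asIdeal := by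
      intro w hw hzw
      by_cases hwv : w = placeIn E A hl hA
      · subst hwv
        exact hbv (by simpa using sub_mem hzw (hz.mem_iff hw))
      · exact w.isPrime.ne_top ((Ideal.eq_top_iff_one _).mpr
          (by simpa using sub_mem hzw ((hz1 w hwv).mem_iff hw)))
    have hkey := ih (a * z) (fun w hw h => (w.isPrime.mem_or_mem h).elim (ha w hw) (hzN w hw))
      (fun w hw => hW w (Finset.mem_insert_of_mem hw)) (fun w hw hwW => ?_)
    · have hz0 : z ≠ 0 := fun h => hzN _ hNv (h ▸ zero_mem _)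
      rw [← Ideal.span_singleton_mul_span_singleton,
        ω.map_mul _ _ (mt Ideal.span_singleton_eq_bot.mp ha0)
          (mt Ideal.span_singleton_eq_bot.mp hz0) (isCoprime_span_m D (hcop a ha))
          (isCoprime_span_m D (hcop z hzN)), hzω, add_zero] at hkey
      exact hkey
    · by_cases hwv : w = placeIn E A hl hA
      · subst hwv
        exact ((NearAt.of_mem_span (by simp : a - a ∈ Ideal.span {((NN : ℕ) : 𝓞 E)})).mul hz).trans
          (NearAt.of_mem_span hab)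
      · simpa using (hnear w hw (by simp [hwv, hwW])).mul (hz1 w hwv)

theorem finite_places_modulus :
    {v : Ext.Place E | ((NN : ℕ) : 𝓞 E) ∈ v.asIdeal}.Finite :=
  (Ideal.finite_factors (show Ideal.span {((NN : ℕ) : 𝓞 E)} ≠ 0 from
    mt Ideal.span_singleton_eq_bot.mp (Nat.cast_ne_zero.mpr
      (mt Ideal.absNorm_eq_zero_iff.mp D.ne_bot)))).subset
    fun v hv => Ideal.dvd_iff_le.mpr ((Ideal.span_singleton_le_iff_mem _).mpr hv)

/-- Elements congruent to `1` at the ramified places have trivial value. -/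
theorem idealVal_span_eq_zero {a : 𝓞 E} (ha : a ≠ 0)
    (hnear : ∀ v ∈ ramSet π NN, NearAt v NN a 1) : idealVal π (Ideal.span {a}) = 0 := by
  classical
  set cnt : 𝓞 E → ℕ := fun a =>
    ((normalizedFactors (Ideal.span {a})).filter fun P => ((NN : ℕ) : 𝓞 E) ∈ P).card
  suffices key : ∀ k : ℕ, ∀ a : 𝓞 E, a ≠ 0 → cnt a = k →
      (∀ v ∈ ramSet π NN, NearAt v NN a 1) → idealVal π (Ideal.span {a}) = 0 from
    key _ a ha rfl hnear
  intro k
  induction k using Nat.strong_induction_on with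
  | _ k ih =>
  intro a ha hk hnear
  have hne := mt Ideal.span_singleton_eq_bot.mp ha
  by_cases hc : ∀ v : Ext.Place E, ((NN : ℕ) : 𝓞 E) ∈ v.asIdeal → a ∉ v.asIdeal
  · rw [idealVal_eq D _ hne
      (isCoprime_span_of_forall fun v hv hle => hc v hv (hle (Ideal.mem_span_singleton_self a)))]
    refine value_span_eq_zero D
      ((finite_places_modulus D).toFinset.filter fun v => Unr π v) a hc (fun v hv => ?_)
      (fun v hv hvW => hnear v ⟨hv, fun hu => hvW ?_⟩)
    · rw [Finset.mem_filter, Set.Finite.mem_toFinset] at hv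
      exact hv
    · rw [Finset.mem_filter, Set.Finite.mem_toFinset]
      exact ⟨hv, hu⟩
  push Not at hc
  obtain ⟨v, hNv, hav⟩ := hc
  have hunr : Unr π v := by
    by_contra hu
    have := (hnear v ⟨hNv, hu⟩).mem_iff hNv
    exact v.isPrime.ne_top ((Ideal.eq_top_iff_one _).mpr (by simpa using sub_mem hav this))
  obtain ⟨l, hl, hlv⟩ := exists_prime_mem v
  obtain ⟨A, hA, rfl⟩ := exists_placeIn E v hl hlv
  obtain ⟨σ, hσE, hσ⟩ := exists_frobenius_fixing (K := E) hl hA
  obtain ⟨R, _, _, _, M, hS⟩ := exists_isSplit D hl hA (hunr A l hl hA rfl) ⟨σ, hσE⟩ hσ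
  obtain ⟨u, I, hu0, hI0, huI, hIc, hIω, hu1⟩ := hS.exists_unif D
  obtain ⟨z, hzI, j, hj, hzj⟩ := Ideal.isCoprime_iff_exists.mp hIc
  have hz1 : z - 1 ∈ Ideal.span {((NN : ℕ) : 𝓞 E)} := by
    rw [show z - 1 = -j by linear_combination hzj]
    exact neg_mem hj
  have hzc : ∀ w : Ext.Place E, ((NN : ℕ) : 𝓞 E) ∈ w.asIdeal → z ∉ w.asIdeal := fun w hw hzw =>
    w.isPrime.ne_top ((Ideal.eq_top_iff_one _).mpr
      (by simpa using sub_mem hzw ((NearAt.of_mem_span hz1).mem_iff hw)))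
  have hz0 : z ≠ 0 := fun h => hzc _ hNv (h ▸ zero_mem _)
  obtain ⟨a', ha'⟩ : ∃ a', u * a' = a * z := by
    have : a * z ∈ Ideal.span {u} := huI ▸ Ideal.mul_mem_mul hav hzI
    obtain ⟨a', h⟩ := Ideal.mem_span_singleton'.mp this
    exact ⟨a', by rw [mul_comm]; exact h⟩
  have ha'0 : a' ≠ 0 := fun h => mul_ne_zero ha hz0 (by rw [← ha', h, mul_zero])
  have hne' := mt Ideal.span_singleton_eq_bot.mp ha'0
  have hnez := mt Ideal.span_singleton_eq_bot.mp hz0
  have heq : Ideal.span {a} * Ideal.span {z}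
      = (placeIn E A hl hA).asIdeal * I * Ideal.span {a'} := by
    rw [Ideal.span_singleton_mul_span_singleton, ← ha', ← Ideal.span_singleton_mul_span_singleton,
      huI]
  have hvI : (placeIn E A hl hA).asIdeal * I ≠ ⊥ := mul_ne_zero (placeIn E A hl hA).ne_bot hI0
  have hval := congrArg (idealVal π) heq
  rw [idealVal_mul π hne hnez, idealVal_mul π hvI hne',
    idealVal_mul π (placeIn E A hl hA).ne_bot hI0, idealVal_eq D I hI0 hIc, idealVal_place,
    primeVal_eq π hl hA hunr ⟨σ, hσE⟩ hσ, add_comm _ (ω.toFun I), hIω, zero_add,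
    idealVal_eq D _ hnez (isCoprime_span_of_forall fun w hw hle =>
      hzc w hw (hle (Ideal.mem_span_singleton_self z))),
    ω.map_ray z hz0 ((Ideal.span_singleton_le_iff_mem _).mpr (Ideal.absNorm_mem m) hz1),
    add_zero] at hval
  rw [hval]
  refine ih (cnt a') ?_ a' ha'0 rfl fun w hw => ?_
  · have hfil := congrArg
      (fun J => ((normalizedFactors J).filter fun P => ((NN : ℕ) : 𝓞 E) ∈ P).card) heq
    have hnil : ∀ J : Ideal (𝓞 E), J ≠ ⊥ → IsCoprime J (Ideal.span {((NN : ℕ) : 𝓞 E)}) →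
        ((normalizedFactors J).filter fun P => ((NN : ℕ) : 𝓞 E) ∈ P).card = 0 := by
      intro J hJ0 hJ
      rw [Multiset.card_eq_zero, Multiset.filter_eq_nil]
      intro P hP hNP
      have hPp := prime_of_normalized_factor P hP
      refine (Ideal.isPrime_of_prime hPp).ne_top (top_le_iff.mp ?_)
      rw [← Ideal.isCoprime_iff_sup_eq.mp hJ]
      exact sup_le (Ideal.le_of_dvd (dvd_of_mem_normalizedFactors hP))
        ((Ideal.span_singleton_le_iff_mem _).mpr hNP)
    simp only [normalizedFactors_mul hne hnez, normalizedFactors_mul hvI hne',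
      normalizedFactors_mul (placeIn E A hl hA).ne_bot hI0, Multiset.filter_add, Multiset.card_add]
      at hfil
    rw [hnil _ hnez (isCoprime_span_of_forall fun w hw hle =>
        hzc w hw (hle (Ideal.mem_span_singleton_self z))), hnil I hI0 hIc, add_zero, add_zero,
      normalizedFactors_irreducible (Ideal.prime_of_isPrime (placeIn E A hl hA).ne_bot
        (placeIn E A hl hA).isPrime).irreducible, normalize_eq, Multiset.filter_singleton,
      if_pos hNv, Multiset.card_singleton] at hfil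
    simp only [cnt] at hk ⊢
    omega
  · have hwv : w ≠ placeIn E A hl hA := fun h => hw.2 (h ▸ hunr)
    have h3 : NearAt w NN (u * a') 1 := by
      rw [ha']
      simpa using (hnear w hw).mul (NearAt.of_mem_span hz1)
    obtain ⟨s, hs, hd⟩ := (((hu1 w hwv).mul
      (NearAt.of_mem_span (by simp : a' - a' ∈ Ideal.span {((NN : ℕ) : 𝓞 E)}))).symm).trans h3
    exact ⟨s, hs, by simpa using hd⟩

/-- Artin reciprocity, given the ray character at almost all primes of degree one. -/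
theorem exists_conductor :
    ∃ (f : Ideal (𝓞 E)) (Ω : Ideal (𝓞 E) → Additive G), f ≠ ⊥ ∧
      (∀ I J, I ≠ ⊥ → J ≠ ⊥ → Ω (I * J) = Ω I + Ω J) ∧ Ω ⊤ = 0 ∧
      (∀ a : 𝓞 E, a ≠ 0 → a - 1 ∈ f → Ω (Ideal.span {a}) = 0) ∧
      ∀ (A : ValuationSubring Qb) (l : ℕ) (hl : l.Prime) (hA : A.LiesOverPrime l),
        ((∀ g : E.fixingSubgroup, (g : Γ) ∈ A.inertiaSubgroupIn ℚ → π g = 1) →
          ¬ f ≤ (placeIn E A hl hA).asIdeal) ∧
        (¬ f ≤ (placeIn E A hl hA).asIdeal → ∀ σ : E.fixingSubgroup,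
          A.IsFrobeniusAt (σ : Γ) (Nat.card (𝓞 E ⧸ (placeIn E A hl hA).asIdeal)) →
          Ω (placeIn E A hl hA).asIdeal = Additive.ofMul (π σ)) := by
  have hN : NN ≠ 0 := mt Ideal.absNorm_eq_zero_iff.mp D.ne_bot
  refine ⟨nearIdeal NN (ramSet π NN), idealVal π, ?_, fun I J => idealVal_mul π, ?_,
    fun a ha h => idealVal_span_eq_zero D ha h, fun A l hl hA => ⟨fun hI hle => ?_, ?_⟩⟩
  · refine Submodule.ne_bot_iff _ |>.mpr ⟨((NN : ℕ) : 𝓞 E), fun v _ => ?_, Nat.cast_ne_zero.mpr hN⟩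
    exact ⟨1, (Ideal.ne_top_iff_one _).mp v.isPrime.ne_top, by rw [one_mul]⟩
  · rw [← Ideal.one_eq_top, idealVal_one]
  · exact ((nearIdeal_le_iff hN (fun v hv => hv.1) _).mp hle).2 (unr_of_inertia π hl hA hI)
  · intro hle σ hσ
    rw [nearIdeal_le_iff hN (fun v hv => hv.1)] at hle
    have hu : Unr π (placeIn E A hl hA) := by
      by_cases hNv : ((NN : ℕ) : 𝓞 E) ∈ (placeIn E A hl hA).asIdeal
      · exact not_not.mp fun hu => hle ⟨hNv, hu⟩
      · exact unr_of_notMem D hNv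
    rw [idealVal_place, primeVal_eq π hl hA hu σ hσ]

end FLTAgent.LT.Recip
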