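import Fermat.Agent.LT.Recip.Cyclo
import Fermat.Agent.TW.NormChar.DegreeOne
import Fermat.Agent.TW.Local.Generation

/-!
# Frobenius elements of residue degree above one at the places of a number field
-/

set_option autoImplicit false
set_option linter.unusedSectionVars false

open IsDedekindDomain NumberField Polynomial
open scoped Pointwise

noncomputable section

namespace FLTAgent.LT.Recip

open FLTAgent.TW FLTAgent.Frobenius

local instance : IsGalois ℚ Qb := qb_isGalois

variable {K : IntermediateField ℚ Qb} [FiniteDimensional ℚ K]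
  {A : ValuationSubring Qb} {l : ℕ}

/-- The order of the residue field is a power of the residue characteristic. -/
theorem exists_natCard_residue (hl : l.Prime) (hA : A.LiesOverPrime l) :
    ∃ f : ℕ, 0 < f ∧ Nat.card (𝓞 K ⧸ (placeIn K A hl hA).asIdeal) = l ^ f := by
  set P := (placeIn K A hl hA).asIdeal
  have : P.IsMaximal := (placeIn K A hl hA).isPrime.isMaximal (placeIn K A hl hA).ne_bot
  let _ : Field (𝓞 K ⧸ P) := Ideal.Quotient.field P
  have := Fact.mk hl
  have : CharP (𝓞 K ⧸ P) l := (CharP.charP_iff_prime_eq_zero hl).mpr (by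
    rw [← map_natCast (Ideal.Quotient.mk P)]
    exact Ideal.Quotient.eq_zero_iff_mem.mpr natCast_mem_placeIn)
  have : Finite (𝓞 K ⧸ P) :=
    Ideal.finiteQuotientOfFreeOfNeBot P (placeIn K A hl hA).ne_bot
  have := Fintype.ofFinite (𝓞 K ⧸ P)
  obtain ⟨n, -, hn⟩ := FiniteField.card (𝓞 K ⧸ P) l
  exact ⟨n, n.pos, by rw [Nat.card_eq_fintype_card, hn]⟩

/-- An element fixing `K` whose residue action is the `q`-th power bounds the residue field. -/
theorem natCard_residue_le (hl : l.Prime) (hA : A.LiesOverPrime l) {σ : Γ} {q : ℕ} (hq : 1 < q)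
    (hσ : A.IsFrobeniusAt σ q) (hσK : σ ∈ K.fixingSubgroup) :
    Nat.card (𝓞 K ⧸ (placeIn K A hl hA).asIdeal) ≤ q := by
  set P := (placeIn K A hl hA).asIdeal
  have : P.IsMaximal := (placeIn K A hl hA).isPrime.isMaximal (placeIn K A hl hA).ne_bot
  let _ : Field (𝓞 K ⧸ P) := Ideal.Quotient.field P
  have hpow : ∀ r : 𝓞 K ⧸ P, r ^ q = r := by
    intro r
    obtain ⟨x, rfl⟩ := Ideal.Quotient.mk_surjective r
    rw [← map_pow, Ideal.Quotient.eq, ← neg_sub, Ideal.neg_mem_iff]
    show toZbar K (x - x ^ q) ∈ centre A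
    have h := (isFrobeniusAt_iff_centre (by omega)).mp hσ (toZbar K x)
    have hfix : σ • toZbar K x = toZbar K x := Subtype.ext (apply_coe_eq_of_mem_fixing hσK (x : K))
    rw [hfix] at h
    rwa [map_sub, map_pow]
  have hfin : Finite (𝓞 K ⧸ P) := Ideal.finiteQuotientOfFreeOfNeBot P (placeIn K A hl hA).ne_bot
  have := Fintype.ofFinite (𝓞 K ⧸ P)
  rw [Nat.card_eq_fintype_card, ← FiniteField.X_pow_card_sub_X_natDegree_eq (𝓞 K ⧸ P) hq]
  refine Polynomial.card_le_degree_of_subset_roots (Z := Finset.univ) fun r _ => ?_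
  rw [mem_roots (FiniteField.X_pow_card_sub_X_ne_zero _ hq)]
  simp [hpow r]

theorem one_lt_natCard_residue (hl : l.Prime) (hA : A.LiesOverPrime l) :
    1 < Nat.card (𝓞 K ⧸ (placeIn K A hl hA).asIdeal) := by
  obtain ⟨f, hf, hc⟩ := exists_natCard_residue (K := K) hl hA
  rw [hc]
  exact Nat.one_lt_pow hf.ne' hl.one_lt

/-- A place of a larger field with a Frobenius element fixing it has the same residue field. -/
theorem natCard_residue_eq {R : IntermediateField ℚ Qb} [FiniteDimensional ℚ R] (hKR : K ≤ R)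
    (hl : l.Prime) (hA : A.LiesOverPrime l) {σ : Γ}
    (hσ : A.IsFrobeniusAt σ (Nat.card (𝓞 K ⧸ (placeIn K A hl hA).asIdeal)))
    (hσR : σ ∈ R.fixingSubgroup) :
    Nat.card (𝓞 R ⧸ (placeIn R A hl hA).asIdeal)
      = Nat.card (𝓞 K ⧸ (placeIn K A hl hA).asIdeal) := by
  refine le_antisymm (natCard_residue_le hl hA (one_lt_natCard_residue hl hA) hσ hσR) ?_
  have : Finite (𝓞 R ⧸ (placeIn R A hl hA).asIdeal) :=
    Ideal.finiteQuotientOfFreeOfNeBot _ (placeIn R A hl hA).ne_bot
  let i : 𝓞 K →+* 𝓞 R := RingOfIntegers.mapRingHom (IntermediateField.inclusion hKR)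
  refine Nat.card_le_card_of_injective
    (Ideal.quotientMap (placeIn R A hl hA).asIdeal i (fun _ h => h)) ?_
  exact Ideal.quotientMap_injective' fun _ h => h

/-- Every place has a Frobenius element fixing the field. -/
theorem exists_frobenius_fixing (hl : l.Prime) (hA : A.LiesOverPrime l) :
    ∃ σ ∈ K.fixingSubgroup,
      A.IsFrobeniusAt σ (Nat.card (𝓞 K ⧸ (placeIn K A hl hA).asIdeal)) := by
  set P := (placeIn K A hl hA).asIdeal with hP
  obtain ⟨f, hf, hcard⟩ := exists_natCard_residue (K := K) hl hA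
  rw [hcard]
  obtain ⟨φ, hφ⟩ := exists_isFrobeniusAt hl hA
  let _t : TopologicalSpace Zbar := ⊥
  have : DiscreteTopology Zbar := ⟨rfl⟩
  let H : Subgroup Γ := K.fixingSubgroup
  have : CompactSpace H :=
    isCompact_iff_compactSpace.mp (InfiniteGalois.fixingSubgroup_isClosed K).isCompact
  have : ContinuousSMul H Zbar := by
    rw [continuousSMul_iff_stabilizer_isOpen]
    intro x
    have : (MulAction.stabilizer H x : Set H) =
        Subtype.val ⁻¹' (MulAction.stabilizer Γ (x : Qb) : Set Γ) := by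
      ext σ
      simp only [SetLike.mem_coe, Set.mem_preimage, MulAction.mem_stabilizer_iff, Subtype.ext_iff]
      rfl
    rw [this]
    have hop : IsOpen (MulAction.stabilizer Γ (x : Qb) : Set Γ) :=
      stabilizer_isOpen_of_isIntegral (K := ℚ) (L := Qb) _
    exact hop.preimage continuous_subtype_val
  let B' : Subalgebra ℤ Zbar := FixedPoints.subalgebra ℤ Zbar H
  have : SMulCommClass H B' Zbar := ⟨fun g a x ↦ by
    show g • ((a : Zbar) * x) = (a : Zbar) * (g • x)
    rw [smul_mul', a.2 g]⟩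
  have : Algebra.IsInvariant B' Zbar H := ⟨fun b hb ↦ ⟨⟨b, hb⟩, rfl⟩⟩
  have hdec := Subgroup.pow_mem _ hφ.mem_decompositionSubgroup f
  let e₀ : (Zbar ⧸ centre A) ≃+* (Zbar ⧸ centre A) :=
    Ideal.quotientEquiv (centre A) (centre A) (MulSemiringAction.toRingEquiv Γ Zbar (φ ^ f))
      (TW.Local.smul_centre_of_mem hdec).symm
  have : (centre A).LiesOver ((centre A).under B') := ⟨rfl⟩
  let e : (Zbar ⧸ centre A) ≃ₐ[B' ⧸ (centre A).under B'] (Zbar ⧸ centre A) :=
    AlgEquiv.ofRingEquiv (f := e₀) fun x ↦ by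
      obtain ⟨⟨x, hx⟩, rfl⟩ := Ideal.Quotient.mk_surjective x
      show Ideal.Quotient.mk (centre A) (φ ^ f • x) = Ideal.Quotient.mk (centre A) x
      rw [Ideal.Quotient.eq]
      have hxK : (x : Qb) ∈ K :=
        mem_of_forall_fixed K fun σ hσ => congrArg Subtype.val (hx ⟨σ, hσ⟩)
      obtain ⟨y, rfl⟩ := exists_toZbar_eq K hxK
      have : P.IsMaximal := (placeIn K A hl hA).isPrime.isMaximal (placeIn K A hl hA).ne_bot
      let _ : Field (𝓞 K ⧸ P) := Ideal.Quotient.field P
      have : Finite (𝓞 K ⧸ P) :=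
        Ideal.finiteQuotientOfFreeOfNeBot P (placeIn K A hl hA).ne_bot
      have := Fintype.ofFinite (𝓞 K ⧸ P)
      have h1 : toZbar K (y ^ l ^ f - y) ∈ centre A := by
        have h := FiniteField.pow_card (Ideal.Quotient.mk P y)
        rw [← Nat.card_eq_fintype_card, hcard, ← map_pow, Ideal.Quotient.eq] at h
        exact h
      have h2 := TW.Local.frobenius_pow_sub_mem hl hφ f (toZbar K y)
      rw [map_sub, map_pow] at h1
      simpa using add_mem h2 h1
  obtain ⟨⟨σ, hσ⟩, hσe⟩ :=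
    Ideal.Quotient.stabilizerHom_surjective_of_profinite (G := H) _ (centre A) e
  refine ⟨σ, σ.2, (isFrobeniusAt_iff_centre (pow_pos hl.pos f)).mpr fun x ↦ ?_⟩
  have h3 : (σ : Γ) • x - φ ^ f • x ∈ centre A := by
    rw [← Ideal.Quotient.eq]
    exact DFunLike.congr_fun hσe (Ideal.Quotient.mk _ x)
  simpa using add_mem h3 (TW.Local.frobenius_pow_sub_mem hl hφ f x)

/-- Inertia is killed by the cyclotomic character away from the modulus. -/
theorem cycHom_inertia {M : ℕ} [NeZero M] (hl : l.Prime) (hA : A.LiesOverPrime l)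
    (hlM : ¬ l ∣ M) {ι : Γ} (hι : ι ∈ A.inertiaSubgroupIn ℚ) : cycHom M ι = 1 := by
  obtain ⟨φ, hφ⟩ := exists_isFrobeniusAt hl hA
  have h1 := cycHom_frobenius (f := 1) hl hA (φ := φ) (by rwa [pow_one]) hlM
  have h2 := cycHom_frobenius (f := 1) hl hA (φ := φ * ι)
    (by rw [pow_one]; exact isFrobeniusAt_mul_of_mem_inertiaSubgroupIn hl.pos hφ hι) hlM
  rwa [map_mul, h1, mul_eq_left] at h2

/-- An element of the decomposition group fixing `K` is, on a finite normal level, a power of a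
Frobenius element times inertia fixing `K`. -/
theorem exists_pow_mul_inertia (hl : l.Prime) (hA : A.LiesOverPrime l) {σ : Γ}
    (hσ : A.IsFrobeniusAt σ (Nat.card (𝓞 K ⧸ (placeIn K A hl hA).asIdeal)))
    (hσK : σ ∈ K.fixingSubgroup) (L : IntermediateField ℚ Qb) [FiniteDimensional ℚ L]
    [Normal ℚ L] (hKL : K ≤ L) {d : Γ} (hd : d ∈ A.decompositionSubgroup ℚ)
    (hdK : d ∈ K.fixingSubgroup) :
    ∃ m : ℕ, ∃ ι ∈ A.inertiaSubgroupIn ℚ, ι ∈ K.fixingSubgroup ∧
      ∀ x ∈ L, d x = (σ ^ m * ι) x := by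
  obtain ⟨φ, hφ⟩ := exists_isFrobeniusAt hl hA
  obtain ⟨n, ι, hι, hd'⟩ := TW.Local.exists_frobenius_pow_mul hl hA hφ L hd
  obtain ⟨f, hf, hcard⟩ := exists_natCard_residue (K := K) hl hA
  rw [hcard] at hσ
  have hqpos : 0 < l ^ f := pow_pos hl.pos f
  -- `n` is a multiple of the residue degree
  have hfn : f ∣ n := by
    set P := (placeIn K A hl hA).asIdeal
    have : P.IsMaximal := (placeIn K A hl hA).isPrime.isMaximal (placeIn K A hl hA).ne_bot
    let _ : Field (𝓞 K ⧸ P) := Ideal.Quotient.field P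
    have : Finite (𝓞 K ⧸ P) := Ideal.finiteQuotientOfFreeOfNeBot P (placeIn K A hl hA).ne_bot
    have := Fintype.ofFinite (𝓞 K ⧸ P)
    have hq : ∀ z : 𝓞 K ⧸ P, z ^ l ^ f = z := fun z => by
      rw [← hcard, Nat.card_eq_fintype_card, FiniteField.pow_card]
    have hpow : ∀ z : 𝓞 K ⧸ P, z ^ l ^ n = z := by
      intro z
      obtain ⟨y, rfl⟩ := Ideal.Quotient.mk_surjective z
      rw [← map_pow, Ideal.Quotient.eq, ← neg_sub, Ideal.neg_mem_iff]
      show toZbar K (y - y ^ l ^ n) ∈ centre A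
      have e : d • toZbar K y = φ ^ n • (ι • toZbar K y) := by
        rw [← mul_smul]
        exact Subtype.ext (hd' _ (hKL (y : K).2))
      have e' : d • toZbar K y = toZbar K y :=
        Subtype.ext (apply_coe_eq_of_mem_fixing hdK (y : K))
      have h1 := TW.Local.frobenius_pow_sub_mem hl hφ n (toZbar K y)
      have h2 : φ ^ n • (ι • toZbar K y - toZbar K y) ∈ centre A :=
        (TW.Local.smul_mem_centre_iff (Subgroup.pow_mem _ hφ.mem_decompositionSubgroup n)).mpr
          ((mem_inertiaSubgroupIn_iff_centre).mp hι _)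
      rw [smul_sub, ← e, e'] at h2
      rw [map_sub, map_pow]
      simpa using add_mem h2 h1
    have hr : ∀ z : 𝓞 K ⧸ P, z ^ l ^ (n % f) = z := by
      intro z
      have hit : ∀ j : ℕ, z ^ l ^ (f * j) = z := by
        intro j
        induction j with
        | zero => simp
        | succ j ih => rw [Nat.mul_succ, pow_add, pow_mul, ih, hq]
      conv_rhs => rw [← hpow z, ← Nat.div_add_mod n f, pow_add, pow_mul, hit]
    by_contra hne
    have hr0 : n % f ≠ 0 := fun h => hne (Nat.dvd_of_mod_eq_zero h)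
    have h1 : 1 < l ^ (n % f) := Nat.one_lt_pow hr0 hl.one_lt
    have hle : Fintype.card (𝓞 K ⧸ P) ≤ l ^ (n % f) := by
      rw [← FiniteField.X_pow_card_sub_X_natDegree_eq (𝓞 K ⧸ P) h1]
      refine Polynomial.card_le_degree_of_subset_roots (Z := Finset.univ) fun z _ => ?_
      rw [mem_roots (FiniteField.X_pow_card_sub_X_ne_zero _ h1)]
      simp [hr z]
    rw [← Nat.card_eq_fintype_card, hcard] at hle
    exact absurd ((Nat.pow_le_pow_iff_right hl.one_lt).mp hle) (not_le.mpr (Nat.mod_lt n hf))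
  obtain ⟨m, rfl⟩ := hfn
  -- `(φ ^ f) ^ m` and `σ ^ m` differ by inertia
  have hφm : A.IsFrobeniusAt (φ ^ (f * m)) (l ^ (f * m)) :=
    (isFrobeniusAt_iff_centre (pow_pos hl.pos _)).mpr fun x =>
      TW.Local.frobenius_pow_sub_mem hl hφ _ x
  have hσm : A.IsFrobeniusAt (σ ^ m) (l ^ (f * m)) := by
    refine (isFrobeniusAt_iff_centre (pow_pos hl.pos _)).mpr fun x => ?_
    have hσmem : ∀ j : ℕ, σ ^ j ∈ A.decompositionSubgroup ℚ :=
      fun j => Subgroup.pow_mem _ hσ.mem_decompositionSubgroup j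
    clear hd' hφm
    induction m generalizing x with
    | zero => simp
    | succ m ih =>
      have h1 := (TW.Local.smul_mem_centre_iff (hσmem m)).mpr
        ((isFrobeniusAt_iff_centre hqpos).mp hσ x)
      have h2 := ih (x ^ l ^ f)
      rw [smul_sub, ← mul_smul, ← pow_succ] at h1
      rw [← pow_mul, ← pow_add, add_comm f, ← Nat.mul_succ] at h2
      simpa using add_mem h1 h2
  refine ⟨m, (σ ^ m)⁻¹ * φ ^ (f * m) * ι,
    mul_mem (inv_mul_mem_inertiaSubgroupIn (pow_pos hl.pos _) hσm hφm) hι, ?_, fun x hx => ?_⟩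
  · rw [IntermediateField.mem_fixingSubgroup_iff]
    intro x hx
    rw [mul_assoc, AlgEquiv.mul_apply, ← hd' x (hKL hx), apply_eq_of_mem_fixing hdK hx]
    exact apply_eq_of_mem_fixing (inv_mem (pow_mem hσK m)) hx
  · rw [hd' x hx, ← mul_assoc, mul_inv_cancel_left]

/-- A character of `Gal(ℚ̄/K)` trivial on inertia takes one value at all Frobenius elements. -/
theorem map_frobenius_eq {G : Type} [CommGroup G] (π : K.fixingSubgroup →* G) {q : ℕ} (hq : 0 < q)
    (hI : ∀ g : K.fixingSubgroup, (g : Γ) ∈ A.inertiaSubgroupIn ℚ → π g = 1)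
    {σ σ' : K.fixingSubgroup} (h : A.IsFrobeniusAt (σ : Γ) q) (h' : A.IsFrobeniusAt (σ' : Γ) q) :
    π σ = π σ' := by
  have := hI (σ⁻¹ * σ') (by simpa using inv_mul_mem_inertiaSubgroupIn hq h h')
  rwa [map_mul, map_inv, inv_mul_eq_one] at this

end FLTAgent.LT.Recip
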