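import Fermat.Agent.LT.Recip.Relation

/-!
# A ray character vanishing at split primes of a cyclic extension of two power degree

It takes the value `a • t` at a degree one prime with Frobenius `σ₀ ^ a`, and these values exhaust
its value group.
-/

set_option autoImplicit false

open IsDedekindDomain NumberField
open scoped Pointwise

noncomputable section

namespace FLTAgent.LT.Recip

open FLTAgent.TW FLTAgent.Frobenius
open FLTAgent.TW.NormChar (exists_bad_isDegreeOne exists_place finite_places_above)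

variable {K F : IntermediateField ℚ Qb} [FiniteDimensional ℚ K] [FiniteDimensional ℚ F]
  {V : Type} [AddCommGroup V] [Finite V] {m : Ideal (𝓞 K)}

/-- A character vanishing at almost all degree one primes is zero. -/
theorem eq_zero_of_degreeOne {K : Type} [Field K] [NumberField K] {W : Type} [AddCommGroup W]
    [Finite W] {m : Ideal (𝓞 K)} (hm : m ≠ ⊥) (χ : RayHom m W)
    (bad : Set (HeightOneSpectrum (𝓞 K))) (hbad : bad.Finite)
    (h : ∀ P, P ∉ bad → IsDegreeOne P → χ.toFun P.asIdeal = 0) : ∀ I, χ.toFun I = 0 := by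
  have hcard := natCard_values_le hm χ K bad hbad fun P h1 h2 _ => h P h1 h2
  rw [Module.finrank_self] at hcard
  intro I
  have := Finite.card_le_one_iff_subsingleton.1 hcard
  exact congrArg Subtype.val (Subsingleton.elim
    (⟨χ.toFun I, AddSubgroup.subset_closure ⟨I, rfl⟩⟩ : χ.values) 0)

/-- Composition with a homomorphism of value groups. -/
def rayMap {K : Type} [Field K] [NumberField K] {W W' : Type} [AddCommGroup W] [AddCommGroup W']
    {m : Ideal (𝓞 K)} (g : W →+ W') (χ : RayHom m W) : RayHom m W' where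
  toFun I := g (χ.toFun I)
  map_mul I J h1 h2 h3 h4 := by rw [χ.map_mul I J h1 h2 h3 h4, map_add]
  map_ray x h1 h2 := by rw [χ.map_ray x h1 h2, map_zero]
  eq_zero I h := by rw [χ.eq_zero I h, map_zero]

/-- The values at degree one primes. -/
theorem exists_gen_value (hKF : K ≤ F) {G : Type} [CommGroup G] [Finite G]
    (πF : K.fixingSubgroup →* G) (hker : ∀ g, πF g = 1 ↔ (g : Γ) ∈ F.fixingSubgroup) (k : ℕ)
    (hG : ∀ x : G, x ^ 2 ^ (k + 1) = 1) (σ₀ : K.fixingSubgroup)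
    (hgen : ∀ g, ∃ a : ℕ, πF g = πF σ₀ ^ a) (hm : m ≠ ⊥) (χ : RayHom m V) (bad : Finset ℕ)
    (hvan : ∀ (A : ValuationSubring Qb) (l : ℕ) (hl : l.Prime) (hA : A.LiesOverPrime l),
      l ∉ bad → ∀ φ ∈ F.fixingSubgroup, A.IsFrobeniusAt φ l →
        χ.toFun (placeIn K A hl hA).asIdeal = 0) :
    ∃ (t : V) (bad' : Finset ℕ), χ.values ≤ AddSubgroup.zmultiples t ∧ 2 ^ (k + 1) • t = 0 ∧
      ∀ (A : ValuationSubring Qb) (l : ℕ) (hl : l.Prime) (hA : A.LiesOverPrime l),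
        l ∉ bad' → ∀ φ : K.fixingSubgroup, A.IsFrobeniusAt (φ : Γ) l →
          ∀ a : ℕ, πF φ = πF σ₀ ^ a → χ.toFun (placeIn K A hl hA).asIdeal = a • t := by
  classical
  set S : Finset ℕ := insert 2 (Ideal.absNorm m).primeFactors with hS
  have hgood : ∀ {l : ℕ}, l.Prime → l ∉ S → ¬ l ∣ Ideal.absNorm m ∧ l ≠ 2 := fun hl hlS =>
    ⟨fun h => hlS (Finset.mem_insert_of_mem
      (Nat.mem_primeFactors.mpr ⟨hl, h, mt Ideal.absNorm_eq_zero_iff.mp hm⟩)),
      fun h => hlS (h ▸ Finset.mem_insert_self _ _)⟩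
  have hclass : ∀ {σ φ : K.fixingSubgroup},
      ((σ⁻¹ * φ : K.fixingSubgroup) : Γ) ∈ F.fixingSubgroup → πF φ = πF σ := by
    intro σ φ h
    have h' := (hker _).mpr h
    rw [_root_.map_mul, _root_.map_inv, inv_mul_eq_one] at h'
    exact h'.symm
  -- two places
  have two : ∀ (A B : ValuationSubring Qb) (l q : ℕ) (hl : l.Prime) (hq : q.Prime)
      (hA : A.LiesOverPrime l) (hB : B.LiesOverPrime q) (φ θ : K.fixingSubgroup),
      l ≠ q → l ∉ S → q ∉ S → A.IsFrobeniusAt (φ : Γ) l → B.IsFrobeniusAt (θ : Γ) q →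
      ∀ a b : ℕ, πF φ ^ a * πF θ ^ b = 1 →
      a • χ.toFun (placeIn K A hl hA).asIdeal + b • χ.toFun (placeIn K B hq hB).asIdeal = 0 := by
    intro A B l q hl hq hA hB φ θ hne hlS hqS hφ hθ a b hab
    have h := relation hKF πF hker k hG hm χ bad hvan ![A, B] ![l, q]
      (Fin.forall_fin_two.mpr ⟨hl, hq⟩) (Fin.forall_fin_two.mpr ⟨hA, hB⟩)
      (by intro i j; fin_cases i <;> fin_cases j <;> simp [hne, hne.symm])
      (Fin.forall_fin_two.mpr ⟨(hgood hl hlS).2, (hgood hq hqS).2⟩)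
      (Fin.forall_fin_two.mpr ⟨(hgood hl hlS).1, (hgood hq hqS).1⟩) ![φ, θ]
      (Fin.forall_fin_two.mpr ⟨hφ, hθ⟩) ![a, b] (by simpa using hab)
    simpa using h
  obtain ⟨l₀, hl₀, A₀, hA₀, φ₀, hS₀, hφ₀, hc₀⟩ := exists_place hKF σ₀ S
  have h₀ := hclass hc₀
  set t := χ.toFun (placeIn K A₀ hl₀ hA₀).asIdeal with ht
  have hval : ∀ (A : ValuationSubring Qb) (l : ℕ) (hl : l.Prime) (hA : A.LiesOverPrime l),
      l ∉ insert l₀ S → ∀ φ : K.fixingSubgroup, A.IsFrobeniusAt (φ : Γ) l →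
        ∀ a : ℕ, πF φ = πF σ₀ ^ a → χ.toFun (placeIn K A hl hA).asIdeal = a • t := by
    intro A l hl hA hlS φ hφ a ha
    simp only [Finset.mem_insert, not_or] at hlS
    have hl' : l ∉ S := hlS.2
    set n := 2 ^ (k + 1) with hn
    have h1 := two A A₀ l l₀ hl hl₀ hA hA₀ φ φ₀ hlS.1 hl' hS₀ hφ hφ₀ 1 ((n - 1) * a) (by
      rw [pow_one, h₀, ha, ← pow_add, ← one_mul a, ← mul_assoc, ← add_mul, mul_one, add_comm,
        Nat.sub_add_cancel (Nat.one_le_two_pow), pow_mul, hG, one_pow])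
    -- `n • t = 0`
    obtain ⟨l₁, hl₁, A₁, hA₁, φ₁, hS₁, hφ₁, hc₁⟩ := exists_place hKF (1 : K.fixingSubgroup)
      (insert l₀ S)
    simp only [Finset.mem_insert, not_or] at hS₁
    have hl₁' : l₁ ∉ S := hS₁.2
    have h2 := two A₀ A₁ l₀ l₁ hl₀ hl₁ hA₀ hA₁ φ₀ φ₁ (Ne.symm hS₁.1) hS₀ hl₁' hφ₀ hφ₁ n 0 (by
      rw [hG, pow_zero, mul_one])
    rw [zero_nsmul, add_zero] at h2
    rw [one_nsmul, ← ht] at h1
    have h3 : ((n - 1) * a) • t + a • t = 0 := by
      rw [← add_nsmul, show (n - 1) * a + a = a * n by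
        rw [← Nat.succ_mul, Nat.succ_eq_add_one, Nat.sub_add_cancel Nat.one_le_two_pow, mul_comm],
        mul_nsmul', h2, nsmul_zero]
    rw [eq_neg_of_add_eq_zero_left h1]
    exact neg_eq_of_add_eq_zero_right h3
  have hn0 : 2 ^ (k + 1) • t = 0 := by
    obtain ⟨l₁, hl₁, A₁, hA₁, φ₁, hS₁, hφ₁, hc₁⟩ := exists_place hKF (1 : K.fixingSubgroup)
      (insert l₀ S)
    simp only [Finset.mem_insert, not_or] at hS₁
    have hl₁' : l₁ ∉ S := hS₁.2
    have h2 := two A₀ A₁ l₀ l₁ hl₀ hl₁ hA₀ hA₁ φ₀ φ₁ (Ne.symm hS₁.1) hS₀ hl₁' hφ₀ hφ₁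
      (2 ^ (k + 1)) 0 (by rw [hG, pow_zero, mul_one])
    simpa using h2
  obtain ⟨SK, hSK⟩ := exists_bad_isDegreeOne K
  refine ⟨t, insert l₀ S, ?_, hn0, hval⟩
  have hz := eq_zero_of_degreeOne hm
    (rayMap (QuotientAddGroup.mk' (AddSubgroup.zmultiples t)) χ)
    _ (finite_places_above K (SK ∪ insert l₀ S)) fun P hP hdeg => ?_
  · rw [RayHom.values, AddSubgroup.closure_le]
    rintro _ ⟨I, rfl⟩
    exact (QuotientAddGroup.eq_zero_iff _).mp (hz I)
  · obtain ⟨x, hx, hxP⟩ := exists_prime_mem P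
    obtain ⟨B, hB, rfl⟩ := exists_placeIn K P hx hxP
    have hx' : x ∉ SK ∪ insert l₀ S := fun h => hP ⟨x, h, hx, natCast_mem_placeIn⟩
    rw [Finset.mem_union, not_or] at hx'
    obtain ⟨θ, hθ⟩ := exists_isFrobeniusAt hx hB
    obtain ⟨a, ha⟩ := hgen ⟨θ, hSK B x hx hB hx'.1 hdeg θ hθ⟩
    show QuotientAddGroup.mk' _ (χ.toFun _) = 0
    rw [QuotientAddGroup.mk'_apply, QuotientAddGroup.eq_zero_iff, hval B x hx hB hx'.2 ⟨θ, _⟩ hθ a ha]
    exact nsmul_mem (AddSubgroup.mem_zmultiples t) a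

end FLTAgent.LT.Recip
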