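import Fermat.Agent.TW.RayL.Main
import Mathlib.Analysis.Fourier.FiniteAbelian.PontryaginDuality

/-!
# The second inequality for ray characters with values in a finite abelian group

The product over all characters of a finite value group of the Euler factors shows that the primes
in the kernel carry at most the reciprocal of the order of the group.
-/

set_option autoImplicit false

noncomputable section

open Module NumberField IsDedekindDomain Filter Topology

attribute [local instance] Classical.propDecidable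

namespace FLTAgent.LT.Recip

open FLTAgent.TW FLTAgent.TW.RayL

variable {K : Type} [Field K] [NumberField K] {m : Ideal (𝓞 K)}
variable {W : Type} [AddCommGroup W] [Finite W]

theorem norm_addChar_eq_one (ψ : AddChar W ℂ) (v : W) : ‖ψ v‖ = 1 := by
  refine Complex.norm_eq_one_of_pow_eq_one (n := addOrderOf v) ?_ (addOrderOf_pos v).ne'
  rw [← AddChar.map_nsmul_eq_pow, addOrderOf_nsmul_eq_zero, AddChar.map_zero_eq_one]

/-- The complex character attached to a character of the value group. -/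
def toRayChar (χ : RayHom m W) (ψ : AddChar W ℂ) : RayChar m where
  toFun :=
    { toFun := fun I => if I ≠ ⊥ ∧ IsCoprime I m then ψ (χ.toFun I) else 0
      map_zero' := if_neg fun h => h.1 rfl
      map_one' := by
        rw [if_pos ⟨one_ne_zero (α := Ideal (𝓞 K)), isCoprime_one_left⟩, rayHom_map_one χ,
          AddChar.map_zero_eq_one]
      map_mul' := fun I J => by
        by_cases h : (I ≠ ⊥ ∧ IsCoprime I m) ∧ J ≠ ⊥ ∧ IsCoprime J m
        · obtain ⟨hI, hJ⟩ := h
          rw [if_pos hI, if_pos hJ, if_pos ⟨mul_ne_zero hI.1 hJ.1, hI.2.mul_left hJ.2⟩,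
            χ.map_mul I J hI.1 hJ.1 hI.2 hJ.2, AddChar.map_add_eq_mul]
        · rw [if_neg fun hIJ : I * J ≠ ⊥ ∧ IsCoprime (I * J) m => h
            ⟨⟨left_ne_zero_of_mul hIJ.1, hIJ.2.of_mul_left_left⟩,
              right_ne_zero_of_mul hIJ.1, hIJ.2.of_mul_left_right⟩]
          rcases not_and_or.1 h with h' | h'
          · rw [if_neg h', zero_mul]
          · rw [if_neg h', mul_zero] }
  norm_eq I hI hc := by
    show ‖if I ≠ ⊥ ∧ IsCoprime I m then ψ (χ.toFun I) else (0 : ℂ)‖ = 1
    rw [if_pos ⟨hI, hc⟩, norm_addChar_eq_one]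
  eq_zero I h := if_neg fun h' => h h'.2
  ray x hx hxm := by
    show (if Ideal.span {x} ≠ ⊥ ∧ IsCoprime (Ideal.span {x}) m then
      ψ (χ.toFun (Ideal.span {x})) else (0 : ℂ)) = 1
    rw [if_pos, χ.map_ray x hx hxm, AddChar.map_zero_eq_one]
    refine ⟨by simpa using hx, Ideal.isCoprime_iff_exists.2
      ⟨x, Ideal.mem_span_singleton_self x, 1 - x, ?_, by ring⟩⟩
    rw [← neg_sub]
    exact neg_mem hxm

theorem toRayChar_apply (χ : RayHom m W) (ψ : AddChar W ℂ) {I : Ideal (𝓞 K)} (hI : I ≠ ⊥)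
    (hc : IsCoprime I m) : (toRayChar χ ψ).toFun I = ψ (χ.toFun I) :=
  if_pos ⟨hI, hc⟩

theorem toRayChar_nontrivial (χ : RayHom m W) (hχ : χ.values = ⊤) {ψ : AddChar W ℂ} (hψ : ψ ≠ 1) :
    ∃ I, I ≠ ⊥ ∧ IsCoprime I m ∧ (toRayChar χ ψ).toFun I ≠ 1 := by
  by_contra hcon
  push Not at hcon
  refine hψ (DFunLike.ext _ _ fun v => ?_)
  rw [AddChar.one_apply]
  have hv : v ∈ χ.values := hχ ▸ AddSubgroup.mem_top v
  refine AddSubgroup.closure_induction ?_ (AddChar.map_zero_eq_one ψ) ?_ ?_ hv
  · rintro _ ⟨I, rfl⟩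
    by_cases h : I ≠ ⊥ ∧ IsCoprime I m
    · rw [← toRayChar_apply χ ψ h.1 h.2]; exact hcon I h.1 h.2
    · rw [χ.eq_zero I (by tauto), AddChar.map_zero_eq_one]
  · intro a b _ _ ha hb; rw [AddChar.map_add_eq_mul, ha, hb, one_mul]
  · intro a _ ha; rw [AddChar.map_neg_eq_inv, ha, inv_one]

theorem norm_prod_factor_le [Fintype (AddChar W ℂ)] (v : W) {x : ℝ} (hx0 : 0 ≤ x) (hx1 : x ≤ 1) :
    ‖∏ ψ : AddChar W ℂ, (1 - ψ v * (x : ℂ))‖ ≤ 1 := by
  let f : AddChar W ℂ →* ℂˣ :=
    MonoidHom.toHomUnits { toFun := fun ψ => ψ v, map_one' := rfl, map_mul' := fun _ _ => rfl }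
  have hf : ∀ ψ, ((f ψ : ℂˣ) : ℂ) = ψ v := fun ψ => rfl
  set o := Nat.card f.range with ho
  have hopos : 0 < o := Nat.card_pos
  have hpow : ∀ z : f.range, ((z : ℂˣ) : ℂ) ^ o = 1 := fun z => by
    rw [← Units.val_pow_eq_pow_val, ← Subgroup.coe_pow, ho, pow_card_eq_one', Subgroup.coe_one,
      Units.val_one]
  have hinj : Function.Injective fun z : f.range => ((z : ℂˣ) : ℂ) :=
    fun a b hab => Subtype.ext (Units.ext hab)
  obtain ⟨ζ, hζ⟩ : ∃ ζ : ℂ, IsPrimitiveRoot ζ o := ⟨_, Complex.isPrimitiveRoot_exp o hopos.ne'⟩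
  have himage : (Finset.univ.image fun z : f.range => ((z : ℂˣ) : ℂ))
      = Polynomial.nthRootsFinset o (1 : ℂ) := by
    refine Finset.eq_of_subset_of_card_le (fun z hz => ?_) ?_
    · obtain ⟨j, -, rfl⟩ := Finset.mem_image.1 hz
      exact (Polynomial.mem_nthRootsFinset hopos 1).2 (hpow j)
    · rw [hζ.card_nthRootsFinset, Finset.card_image_of_injective _ hinj, Finset.card_univ, ho,
        Nat.card_eq_fintype_card]
  have hroots : ∏ z : f.range, (1 - ((z : ℂˣ) : ℂ) * (x : ℂ)) = 1 - (x : ℂ) ^ o := by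
    have h := hζ.pow_sub_pow_eq_prod_sub_mul (x := (1 : ℂ)) (y := (x : ℂ)) hopos
    rw [one_pow] at h
    rw [h, ← himage, Finset.prod_image hinj.injOn]
  set k := (Finset.univ.filter fun ψ : AddChar W ℂ => f ψ = 1).card
  have hfib : ∀ z : f.range,
      (Finset.univ.filter fun ψ : AddChar W ℂ => f.rangeRestrict ψ = z).card = k := by
    intro z
    obtain ⟨ψ₀, rfl⟩ := f.rangeRestrict_surjective z
    refine Finset.card_bij' (fun ψ _ => ψ * ψ₀⁻¹) (fun ψ _ => ψ * ψ₀) ?_ ?_ ?_ ?_
    · intro ψ hψ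
      simp only [Finset.mem_filter, Finset.mem_univ, true_and] at hψ ⊢
      have h : f ψ = f ψ₀ := congrArg Subtype.val hψ
      rw [map_mul, map_inv, h, mul_inv_cancel]
    · intro ψ hψ
      simp only [Finset.mem_filter, Finset.mem_univ, true_and] at hψ ⊢
      exact Subtype.ext (show f (ψ * ψ₀) = f ψ₀ by rw [map_mul, hψ, one_mul])
    · intro ψ _; simp
    · intro ψ _; simp
  have hprod : ∏ ψ : AddChar W ℂ, (1 - ψ v * (x : ℂ)) = (1 - (x : ℂ) ^ o) ^ k := by
    rw [← hroots, ← Finset.prod_pow, ← Finset.prod_fiberwise Finset.univ f.rangeRestrict]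
    refine Finset.prod_congr rfl fun z _ => ?_
    rw [← hfib z, ← Finset.prod_const]
    refine Finset.prod_congr rfl fun ψ hψ => ?_
    rw [← (Finset.mem_filter.1 hψ).2]
    rfl
  rw [hprod, norm_pow, ← Complex.ofReal_pow, ← Complex.ofReal_one, ← Complex.ofReal_sub,
    Complex.norm_real, Real.norm_eq_abs]
  refine pow_le_one₀ (abs_nonneg _) ?_
  rw [abs_of_nonneg (by linarith [pow_le_one₀ (n := o) hx0 hx1])]
  linarith [pow_nonneg hx0 o]

/-- The order of the value group times the kernel primes is at most the total. -/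
theorem exists_kernel_bound (hm : m ≠ ⊥) (χ : RayHom m W) (hχ : χ.values = ⊤) :
    ∃ D : ℝ, ∀ᶠ s in 𝓝[>] (1 : ℝ),
      (Nat.card W : ℝ) * primeSum {P : HeightOneSpectrum (𝓞 K) |
          IsCoprime P.asIdeal m ∧ χ.toFun P.asIdeal = 0} s ≤ Real.log (1 / (s - 1)) + D := by
  have := Fintype.ofFinite W
  obtain ⟨D, hD⟩ := exists_log_zetaSum (K := K)
  choose! B hB using fun (ψ : AddChar W ℂ) (hψ : ψ ≠ 1) =>
    (toRayChar χ ψ).exists_bound_lseries hm (toRayChar_nontrivial χ hχ hψ)
  set E : ℝ := ∏ ψ ∈ Finset.univ.erase (1 : AddChar W ℂ), max 1 (B ψ) with hE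
  have hE1 : 1 ≤ E := Finset.prod_const_one.ge.trans
    (Finset.prod_le_prod (fun _ _ => zero_le_one) fun ψ _ => le_max_left _ _)
  set N : ℕ := Nat.card W with hNdef
  refine ⟨D + Real.log E + (N : ℝ) * Real.log 2, ?_⟩
  filter_upwards [hD, self_mem_nhdsWithin, nhdsWithin_le_nhds (eventually_lt_nhds one_lt_two)]
    with s hsD (hs : 1 < s) (hs2 : s < 2)
  choose T₀ hT₀ using fun ψ => (toRayChar χ ψ).exists_euler hs
  have hp0 : (0 : ℝ) < (N : ℝ) := Nat.cast_pos.2 Nat.card_pos
  rw [← le_div_iff₀' hp0]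
  refine primeSum_le_of_sum_le fun T hT => (le_div_iff₀' hp0).2 ?_
  set U : Finset (HeightOneSpectrum (𝓞 K)) := T ∪ Finset.univ.biUnion T₀
  have hpos : ∀ P : HeightOneSpectrum (𝓞 K), 0 < 1 - nterm s P.asIdeal := fun P => by
    linarith [nterm_prime_le_half hs.le P]
  have hcard : Fintype.card (AddChar W ℂ) = N := by
    rw [AddChar.card_eq, hNdef, Nat.card_eq_fintype_card]
  have hfac : ∀ P : HeightOneSpectrum (𝓞 K),
      ‖∏ ψ, (1 - (toRayChar χ ψ).term s P.asIdeal)‖
        ≤ if P ∈ T then (1 - nterm s P.asIdeal) ^ N else 1 := by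
    intro P
    by_cases hc : IsCoprime P.asIdeal m
    · simp only [RayChar.term, toRayChar_apply χ _ P.ne_bot hc]
      by_cases hv : χ.toFun P.asIdeal = 0
      · simp only [hv, AddChar.map_zero_eq_one, one_mul, Finset.prod_const,
          Finset.card_univ, hcard, norm_pow]
        rw [← Complex.ofReal_one, ← Complex.ofReal_sub, Complex.norm_real, Real.norm_eq_abs,
          abs_of_pos (hpos P)]
        split_ifs
        · exact le_rfl
        · exact pow_le_one₀ (hpos P).le (by linarith [nterm_nonneg s P.asIdeal])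
      · rw [if_neg fun hPT => hv (hT P hPT).2]
        exact norm_prod_factor_le _ (nterm_nonneg _ _)
          ((nterm_prime_le_half hs.le P).trans (by norm_num))
    · rw [if_neg fun hPT => hc (hT P hPT).1]
      simp [RayChar.term, (toRayChar χ _).eq_zero _ hc]
  have hlow : (1 / 2 : ℝ) ^ N
      ≤ (zetaSum K s * E) * ∏ P ∈ T, (1 - nterm s P.asIdeal) ^ N := by
    calc (1 / 2 : ℝ) ^ N = ∏ _ψ : AddChar W ℂ, (1 / 2 : ℝ) := by
          rw [Finset.prod_const, Finset.card_univ, hcard]
      _ ≤ ∏ ψ, (‖(toRayChar χ ψ).lseries s‖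
            * ‖∏ P ∈ U, (1 - (toRayChar χ ψ).term s P.asIdeal)‖) :=
          Finset.prod_le_prod (fun _ _ => by norm_num) fun ψ _ =>
            RayChar.half_le_norm _ (hT₀ ψ U
              ((Finset.subset_biUnion_of_mem T₀ (Finset.mem_univ ψ)).trans Finset.subset_union_right))
      _ = (∏ ψ, ‖(toRayChar χ ψ).lseries s‖)
            * ∏ P ∈ U, ‖∏ ψ, (1 - (toRayChar χ ψ).term s P.asIdeal)‖ := by
          simp only [Finset.prod_mul_distrib, norm_prod]
          rw [Finset.prod_comm]
      _ ≤ _ := by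
          refine mul_le_mul ?_ ?_ (Finset.prod_nonneg fun _ _ => norm_nonneg _)
            (mul_nonneg (zero_le_one.trans (one_le_zetaSum hs)) (zero_le_one.trans hE1))
          · rw [← Finset.mul_prod_erase _ _ (Finset.mem_univ (1 : AddChar W ℂ)), hE]
            refine mul_le_mul ((toRayChar χ 1).norm_lseries_le hs) ?_
              (Finset.prod_nonneg fun _ _ => norm_nonneg _) (zero_le_one.trans (one_le_zetaSum hs))
            exact Finset.prod_le_prod (fun _ _ => norm_nonneg _) fun ψ hψ =>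
              (hB ψ (Finset.mem_erase.1 hψ).1 s hs hs2.le).trans (le_max_right _ _)
          · refine (Finset.prod_le_prod (fun _ _ => norm_nonneg _) fun P _ => hfac P).trans (le_of_eq ?_)
            rw [Finset.prod_ite, Finset.prod_const_one, mul_one, Finset.filter_mem_eq_inter,
              Finset.inter_eq_right.2 Finset.subset_union_left]
  have hZ : 0 < zetaSum K s := zero_lt_one.trans_le (one_le_zetaSum hs)
  have hlog := Real.log_le_log (by positivity) hlow
  rw [Real.log_mul (by positivity) (Finset.prod_pos fun P _ => pow_pos (hpos P) _).ne',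
    Real.log_mul hZ.ne' (by positivity), Real.log_prod fun P _ => (pow_pos (hpos P) _).ne',
    Real.log_pow, one_div, Real.log_inv] at hlog
  simp only [Real.log_pow, ← Finset.mul_sum] at hlog
  have hle : ∑ P ∈ T, Real.log (1 - nterm s P.asIdeal) ≤ -∑ P ∈ T, nterm s P.asIdeal := by
    refine (Finset.sum_le_sum fun P _ => Real.log_le_sub_one_of_pos (hpos P)).trans ?_
    simp only [sub_sub_cancel_left, Finset.sum_neg_distrib]
    exact le_rfl
  have := mul_le_mul_of_nonneg_left hle hp0.le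
  linarith [(abs_le.1 hsD).2]

variable {V : Type} [AddCommGroup V] [Finite V]

/-- Second inequality: if `χ` vanishes at almost all degree one primes with a degree one prime
above in `L`, its values form a group of order at most `[L : K]`. -/
theorem natCard_values_le (hm : m ≠ ⊥) (χ : RayHom m V)
    (L : Type) [Field L] [NumberField L] [Algebra K L]
    (bad : Set (HeightOneSpectrum (𝓞 K))) (hbad : bad.Finite)
    (h : ∀ P, P ∉ bad → IsDegreeOne P → HasDegreeOneAbove L P → χ.toFun P.asIdeal = 0) :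
    Nat.card χ.values ≤ finrank K L := by
  let χ' : RayHom m χ.values :=
    { toFun := fun I => ⟨χ.toFun I, AddSubgroup.subset_closure ⟨I, rfl⟩⟩
      map_mul := fun I J h1 h2 h3 h4 => Subtype.ext (χ.map_mul I J h1 h2 h3 h4)
      map_ray := fun x h1 h2 => Subtype.ext (χ.map_ray x h1 h2)
      eq_zero := fun I hI => Subtype.ext (χ.eq_zero I hI) }
  have hval : χ'.values = ⊤ := by
    refine AddSubgroup.map_injective χ.values.subtype_injective ?_
    show (AddSubgroup.closure (Set.range χ'.toFun)).map χ.values.subtype = _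
    rw [AddMonoidHom.map_closure, ← Set.range_comp, ← AddMonoidHom.range_eq_map,
      AddSubgroup.range_subtype]
    rfl
  obtain ⟨D₁, hD₁⟩ := exists_kernel_bound hm χ' hval
  obtain ⟨D₂, hD₂⟩ := exists_le_splitSet (K := K) (L := L)
  have hB := hbad.union (finite_not_coprime hm)
  set c : ℝ := (hB.toFinset.card : ℝ)
  set q : ℝ := (Nat.card χ.values : ℝ)
  set d : ℝ := (finrank K L : ℝ)
  suffices hle : q - d ≤ 0 by
    have hle' := sub_nonpos.1 hle
    simp only [q, d] at hle'
    exact_mod_cast hle'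
  refine nonpos_of_eventually (C := d * (D₁ + q * c) + q * D₂) ?_
  filter_upwards [hD₁, hD₂, self_mem_nhdsWithin] with s h1 h2 (hs : 1 < s)
  have hsub : splitSet K L ⊆ {P | IsCoprime P.asIdeal m ∧ χ'.toFun P.asIdeal = 0}
      ∪ (bad ∪ {P | ¬ IsCoprime P.asIdeal m}) := by
    intro P hP
    by_cases hPb : P ∈ bad
    · exact Or.inr (Or.inl hPb)
    by_cases hPc : IsCoprime P.asIdeal m
    · exact Or.inl ⟨hPc, Subtype.ext (h P hPb hP.1 hP.2)⟩
    · exact Or.inr (Or.inr hPc)
  have h3 := (primeSum_mono hsub hs).trans ((primeSum_union_le _ _ hs).trans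
    (add_le_add_right (primeSum_le_card hB hs) _))
  have hq : 0 ≤ q := Nat.cast_nonneg _
  have hd : 0 ≤ d := Nat.cast_nonneg _
  have h4 := mul_le_mul_of_nonneg_left h3 (mul_nonneg hq hd)
  have h5 := mul_le_mul_of_nonneg_left h1 hd
  have h6 := mul_le_mul_of_nonneg_left h2 hq
  linarith

end FLTAgent.LT.Recip
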