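import Fermat.Agent.LT.Interface
import Fermat.Agent.LT.Recip.Extend
import Fermat.Agent.LT.Recip.Layer.Degree

/-!
# Artin reciprocity for cyclic characters of order dividing four
-/

set_option autoImplicit false
set_option linter.unusedSectionVars false
set_option synthInstance.maxHeartbeats 400000

open IsDedekindDomain NumberField
open scoped Pointwise

noncomputable section

namespace FLTAgent.LT.Recip

open FLTAgent.Global FLTAgent.TW FLTAgent.Frobenius

local instance : IsGalois ℚ Qb := qb_isGalois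

variable {E : IntermediateField ℚ Qb} [FiniteDimensional ℚ E] {G : Type} [CommGroup G] [Finite G]
  {P : Subgroup GQ} {π : E.fixingSubgroup →* G} {L : Level}

/-- Homomorphisms out of a cyclic group. -/
theorem exists_hom_of_gen {V W : Type*} [AddCommGroup V] [AddCommGroup W] {t : V} {w : W}
    (htop : AddSubgroup.zmultiples t = ⊤) (hord : addOrderOf w ∣ addOrderOf t) :
    ∃ ψ : V →+ W, ψ t = w := by
  have hsurj : Function.Surjective (zmultiplesHom _ t) := fun x => by
    obtain ⟨z, hz⟩ := AddSubgroup.mem_zmultiples_iff.mp (htop ▸ AddSubgroup.mem_top x)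
    exact ⟨z, hz⟩
  have hker : (zmultiplesHom _ t).ker ≤ (zmultiplesHom _ w).ker := fun z hz => by
    rw [AddMonoidHom.mem_ker, zmultiplesHom_apply] at hz ⊢
    rw [← addOrderOf_dvd_iff_zsmul_eq_zero] at hz ⊢
    exact (Int.natCast_dvd_natCast.mpr hord).trans hz
  refine ⟨(zmultiplesHom _ t).liftOfSurjective hsurj ⟨zmultiplesHom _ w, hker⟩, ?_⟩
  have h := (zmultiplesHom _ t).liftOfRightInverse_comp_apply (Function.surjInv hsurj)
    (Function.rightInverse_surjInv hsurj) ⟨zmultiplesHom _ w, hker⟩ 1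
  simpa using h

set_option maxHeartbeats 800000 in
/-- The Artin data of a cyclic layer whose norm index is at least its degree. -/
theorem IsKerLayer.exists_artinData (K : IsKerLayer π P L) (hπ : Function.Surjective π)
    [IsCyclic G] (k : ℕ) (hk : k ≤ 1) (hG : Nat.card G = 2 ^ (k + 1))
    [Finite (NormQuot E.fixingSubgroup P)]
    (hV : Nat.card G ≤ Nat.card (NormQuot E.fixingSubgroup P)) :
    ∃ (m : Ideal (𝓞 E)) (ω : RayHom m (Additive G)), ArtinData π ω := by
  have hpow : ∀ x : G, x ^ 2 ^ (k + 1) = 1 := fun x => hG ▸ pow_card_eq_one'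
  obtain ⟨g₀, hg₀⟩ := IsCyclic.exists_monoid_generator (α := G)
  obtain ⟨σ₀, rfl⟩ := hπ g₀
  obtain ⟨N, χ, t, bad, hN, hunr, htop, ht, hval⟩ := K.exists_gen k hpow σ₀ fun g => by
    obtain ⟨a, ha⟩ := Submonoid.mem_powers_iff _ _ |>.mp (hg₀ (π g))
    exact ⟨a, ha.symm⟩
  obtain ⟨hcard, hle⟩ := natCard_le_of_gen (pow_pos two_pos (k + 1)) htop ht
  have hord : addOrderOf (Additive.ofMul (π σ₀)) ∣ addOrderOf t := by
    rw [← hcard, le_antisymm (hG ▸ hle) hV, addOrderOf_ofMul_eq_orderOf]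
    exact orderOf_dvd_natCard _
  obtain ⟨ψ, hψ⟩ := exists_hom_of_gen htop hord
  refine ⟨_, rayMap ψ χ, mt Ideal.span_singleton_eq_bot.mp (Nat.cast_ne_zero.mpr hN), ?_, ?_, ?_, ?_⟩
  · exact ⟨L.fld, L.fin, fun g hg => (K.mem_iff g).mpr (K.lvl_le hg)⟩
  · intro x
    obtain rfl | rfl : k = 0 ∨ k = 1 := by omega
    · rw [show (4 : ℕ) = 2 * 2 from rfl, pow_mul, show x ^ 2 = 1 from hpow x, one_pow]
    · exact hpow x
  · refine ⟨bad, fun A l hl hA hb φ hφ => ?_⟩
    obtain ⟨a, ha⟩ := Submonoid.mem_powers_iff _ _ |>.mp (hg₀ (π φ))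
    show ψ (χ.toFun _) = _
    rw [hval A l hl hA hb φ hφ a ha.symm, map_nsmul, hψ, ← ofMul_pow, ha]
  · intro A l hl hA hlN g hg
    refine (K.mem_iff g).mpr (K.lvl_le (hunr l hl (fun hd => hlN ?_) A hA hg))
    obtain ⟨f, hf, hq⟩ := exists_natCard_residue (K := E) hl hA
    refine (dvd_pow_self l hf.ne').trans ?_
    rw [← hq, ← Submodule.cardQuot_apply, ← Ideal.absNorm_apply]
    refine Ideal.absNorm_dvd_absNorm_of_le ((Ideal.span_singleton_le_iff_mem _).mpr ?_)
    obtain ⟨c, rfl⟩ := hd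
    rw [Nat.cast_mul]
    exact Ideal.mul_mem_right _ _ natCast_mem_placeIn

end FLTAgent.LT.Recip

namespace FLTAgent.LT

open FLTAgent.Global FLTAgent.TW FLTAgent.Frobenius Recip

set_option maxHeartbeats 800000 in
theorem cyclicReciprocity : CyclicReciprocity := by
  intro E _ hc χ hopen h4
  have : IsGalois ℚ Qb := qb_isGalois
  have hfd : FiniteDimensional ℚ E := inferInstance
  let π : E.fixingSubgroup →* χ.range := χ.rangeRestrict
  have hπ : Function.Surjective π := χ.rangeRestrict_surjective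
  have h4' : ∀ x : χ.range, x ^ 4 = 1 := fun x => by
    obtain ⟨σ, hσ⟩ := hπ x
    rw [← hσ]
    exact Subtype.ext (h4 σ)
  have hfin : Finite χ.range := by
    refine Finite.of_injective
      (fun x : χ.range => (⟨x, (mem_rootsOfUnity 4 _).mpr (congrArg Subtype.val (h4' x))⟩ :
        rootsOfUnity 4 ℂ)) fun x y h => ?_
    exact Subtype.ext (congrArg (fun z : rootsOfUnity 4 ℂ => (z : ℂˣ)) h)
  have hplace : ∀ (p : ℕ) (hp : p.Prime) (A : ValuationSubring Qb) (hA : A.LiesOverPrime p)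
      (v : HeightOneSpectrum (𝓞 E)),
      (∀ x : 𝓞 E, x ∈ v.asIdeal ↔ ((x : E) : Qb) ∈ A.nonunits) → v = placeIn E A hp hA :=
    fun p hp A hA v hv => HeightOneSpectrum.ext (Ideal.ext fun x => (hv x).trans Iff.rfl)
  obtain ⟨g, hg⟩ := IsCyclic.exists_generator (α := χ.range)
  have hcard : Nat.card χ.range ∣ 4 := by
    rw [← orderOf_eq_card_of_forall_mem_zpowers hg]
    exact orderOf_dvd_of_pow_eq_one (h4' g)
  by_cases h1 : Nat.card χ.range = 1
  · have hsub := (Nat.card_eq_one_iff_unique.mp h1).1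
    refine ⟨⊤, fun _ => 1, top_ne_bot, rfl, fun _ _ _ _ => (one_mul 1).symm, fun _ _ _ => rfl,
      fun p hp A hA v hv => ⟨fun _ h => v.isPrime.ne_top (top_le_iff.mp h),
        fun _ σ hσ _ => ?_⟩⟩
    have h : π ⟨σ, hσ⟩ = 1 := Subsingleton.elim _ _
    have h' : χ ⟨σ, hσ⟩ = 1 := congrArg Subtype.val h
    rw [h', Units.val_one]
  -- the level
  obtain ⟨U, hU, hUeq⟩ := isOpen_induced_iff.mp hopen
  have h1U : (1 : GQ) ∈ U := by
    have h : (1 : E.fixingSubgroup) ∈ Subtype.val ⁻¹' U := by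
      rw [hUeq]; exact one_mem χ.ker
    exact h
  obtain ⟨F, hF, hFU⟩ := (krullTopology_mem_nhds_one_iff ℚ Qb U).mp (hU.mem_nhds h1U)
  obtain ⟨L, hL⟩ := exists_level (E ⊔ F)
  set P : Subgroup GQ := π.ker.map (IntermediateField.fixingSubgroup E).subtype with hP
  have K : IsKerLayer π P L := by
    refine ⟨Subgroup.map_subtype_le _, fun g => ⟨fun h => ⟨g, h, rfl⟩,
      fun ⟨x, hx, hxg⟩ => Subtype.ext hxg ▸ hx⟩, fun s hs => ?_⟩
    have hs' := IntermediateField.fixingSubgroup_antitone hL hs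
    refine ⟨⟨s, IntermediateField.fixingSubgroup_antitone le_sup_left hs'⟩, ?_, rfl⟩
    have h : (⟨s, IntermediateField.fixingSubgroup_antitone le_sup_left hs'⟩ : E.fixingSubgroup) ∈
        Subtype.val ⁻¹' U := hFU (IntermediateField.fixingSubgroup_antitone le_sup_right hs')
    rw [hUeq] at h
    exact Subtype.ext h
  obtain ⟨m, ω, D⟩ : ∃ (m : Ideal (𝓞 E)) (ω : RayHom m (Additive χ.range)), ArtinData π ω := by
    obtain h2 | h2 : Nat.card χ.range = 2 ∨ Nat.card χ.range = 4 := by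
      have hle := Nat.le_of_dvd (by norm_num) hcard
      interval_cases h : Nat.card χ.range <;> simp_all
    · obtain ⟨hV, -⟩ := K.two hc hπ h2
      have : Finite (NormQuot E.fixingSubgroup P) := Nat.finite_of_card_ne_zero (by omega)
      exact K.exists_artinData hπ 0 zero_le_one (by rw [h2]; rfl) (by omega)
    · obtain ⟨hV, hV'⟩ := K.four hc hπ h2
      exact K.exists_artinData hπ 1 le_rfl (by rw [h2]; rfl) (by omega)
  obtain ⟨f, Ω, hf, hmul, htop, hray, hplaces⟩ := exists_conductor D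
  classical
  refine ⟨f, fun I => if I = ⊥ then 0 else (((Ω I).toMul : χ.range) : ℂˣ), hf, ?_, ?_, ?_, ?_⟩
  · simp [htop]
  · intro I J _ _
    rcases eq_or_ne I ⊥ with rfl | hI
    · simp
    rcases eq_or_ne J ⊥ with rfl | hJ
    · simp
    have hIJ : I * J ≠ ⊥ := mul_ne_zero hI hJ
    simp [hI, hJ, hIJ, hmul I J hI hJ]
  · intro α hα hαf
    simp [hα, hray α hα hαf]
  intro p hp A hA v hv
  obtain rfl := hplace p hp A hA v hv
  refine ⟨fun hI => (hplaces A p hp hA).1 fun g hg => Subtype.ext (hI g g.2 hg),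
    fun hle σ hσ hfrob => ?_⟩
  dsimp only
  rw [if_neg (placeIn E A hp hA).ne_bot, (hplaces A p hp hA).2 hle ⟨σ, hσ⟩ hfrob]
  rfl

end FLTAgent.LT
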