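import Fermat.Agent.TW.NormChar.Main
import Fermat.Agent.LT.Recip.Cyclo
import Fermat.Agent.LT.Recip.KernelBound

/-!
# A relation between Frobenius classes is satisfied by a ray character vanishing at split primes

The exponent of the Galois group and of the value group is a power of two.
-/

set_option autoImplicit false

open IsDedekindDomain NumberField
open scoped Pointwise

noncomputable section

namespace FLTAgent.LT.Recip

open FLTAgent.TW FLTAgent.Frobenius
open FLTAgent.TW.NormChar (exists_bad_isDegreeOne absNorm_eq_of_isDegreeOne isDegreeOne_of_frobenius_mem finite_places_above)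

local instance : IsGalois ℚ Qb := qb_isGalois

/-- The degree is bounded by the order of a group receiving the Galois group injectively. -/
theorem finrank_le_natCard {G : Type} [Group G] (T : Subgroup G) [Finite T]
    {K R L : IntermediateField ℚ Qb} [FiniteDimensional ℚ R] [FiniteDimensional ℚ L]
    [Algebra R L] [IsInclusion R L] (π : K.fixingSubgroup →* G)
    (hR : ∀ σ ∈ R.fixingSubgroup, ∃ g : K.fixingSubgroup, (g : Γ) = σ ∧ π g ∈ T)
    (hL : ∀ g : K.fixingSubgroup, π g = 1 → (g : Γ) ∈ L.fixingSubgroup) :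
    Module.finrank R L ≤ Nat.card T := by
  have := IsInclusion.scalarTower (K := R) (L := L)
  have : FiniteDimensional R L := FiniteDimensional.right ℚ R L
  have key : ∀ e : L →ₐ[R] Qb, ∃ g : K.fixingSubgroup,
      (∀ x : L, e x = (g : Γ) x) ∧ π g ∈ T := by
    intro e
    have : Normal ℚ Qb := IsGalois.to_normal
    let σ : Γ := AlgEquiv.ofBijective ((e.restrictScalars ℚ).liftNormal Qb)
      (AlgHom.normal_bijective ℚ Qb Qb _)
    have hσ : ∀ x : L, σ (x : Qb) = e x := fun x =>
      AlgHom.liftNormal_commutes (e.restrictScalars ℚ) Qb x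
    obtain ⟨g, hg, hgT⟩ := hR σ ((IntermediateField.mem_fixingSubgroup_iff _ _).mpr fun x hx => by
      have h := hσ (algebraMap R L ⟨x, hx⟩)
      rw [IsInclusion.coe_algebraMap, e.commutes] at h
      exact h)
    exact ⟨g, fun x => by rw [hg, hσ], hgT⟩
  choose g hg hgT using key
  have hinj : Function.Injective fun e : L →ₐ[R] Qb => (⟨π (g e), hgT e⟩ : T) := by
    intro e e' h
    have heq : π (g e) = π (g e') := congrArg Subtype.val h
    have hmem : (((g e)⁻¹ * g e' : K.fixingSubgroup) : Γ) ∈ L.fixingSubgroup :=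
      hL _ (by rw [_root_.map_mul, _root_.map_inv, heq, inv_mul_cancel])
    refine AlgHom.ext fun x => ?_
    rw [hg, hg]
    have h2 := apply_coe_eq_of_mem_fixing hmem x
    rw [Subgroup.coe_mul, Subgroup.coe_inv, AlgEquiv.mul_apply] at h2
    have h3 := congrArg ((g e : Γ)) h2
    rw [← AlgEquiv.mul_apply, mul_inv_cancel, AlgEquiv.one_apply] at h3
    exact h3.symm
  have h := Nat.card_le_card_of_injective _ hinj
  rwa [Nat.card_eq_fintype_card, AlgHom.card] at h

variable {K F : IntermediateField ℚ Qb} [FiniteDimensional ℚ K] [FiniteDimensional ℚ F]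
  {V : Type} [AddCommGroup V] [Finite V] {m : Ideal (𝓞 K)}

/-- A relation between Frobenius classes in `F/K` is satisfied by the values of `χ`. -/
theorem relation (hKF : K ≤ F) {G : Type} [CommGroup G] [Finite G]
    (πF : K.fixingSubgroup →* G) (hker : ∀ g, πF g = 1 ↔ (g : Γ) ∈ F.fixingSubgroup) (k : ℕ)
    (hG : ∀ x : G, x ^ 2 ^ (k + 1) = 1) (hm : m ≠ ⊥)
    (χ : RayHom m V) (bad : Finset ℕ)
    (hvan : ∀ (A : ValuationSubring Qb) (l : ℕ) (hl : l.Prime) (hA : A.LiesOverPrime l),
      l ∉ bad → ∀ φ ∈ F.fixingSubgroup, A.IsFrobeniusAt φ l →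
        χ.toFun (placeIn K A hl hA).asIdeal = 0)
    {r : ℕ} (A : Fin r → ValuationSubring Qb) (l : Fin r → ℕ) (hl : ∀ i, (l i).Prime)
    (hA : ∀ i, (A i).LiesOverPrime (l i)) (hinj : Function.Injective l) (h2 : ∀ i, l i ≠ 2)
    (hgood : ∀ i, ¬ l i ∣ Ideal.absNorm m) (φ : Fin r → K.fixingSubgroup)
    (hφ : ∀ i, (A i).IsFrobeniusAt (φ i : Γ) (l i)) (a : Fin r → ℕ)
    (hrel : ∏ i, πF (φ i) ^ a i = 1) :
    ∑ i, a i • χ.toFun (placeIn K (A i) (hl i) (hA i)).asIdeal = 0 := by
  classical
  obtain ⟨M, hM0, hlM, hind⟩ := exists_cycVal_independent l hl h2 hinj k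
  have : NeZero M := ⟨hM0⟩
  have := finiteDimensional_cycField M
  let c : ℕ → CycGrp M := cycVal M
  have hcFrob : ∀ (B : ValuationSubring Qb) (x : ℕ), x.Prime → B.LiesOverPrime x → ¬ x ∣ M →
      ∀ θ : Γ, B.IsFrobeniusAt θ x → cycHom M θ = Multiplicative.ofAdd (c x) :=
    fun B x hx hB hxM θ hθ => by
      have h := cycHom_frobenius (f := 1) hx hB (φ := θ) (by rwa [pow_one]) hxM
      rwa [pow_one] at h
  let π : K.fixingSubgroup →* G × Multiplicative (CycGrp M) :=
    πF.prod ((cycHom M).comp K.fixingSubgroup.subtype)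
  have hN : ∀ g : K.fixingSubgroup, π g = 1 ↔ (g : Γ) ∈ F.fixingSubgroup ∧ cycHom M g = 1 :=
    fun g => Prod.ext_iff.trans (and_congr (hker g) Iff.rfl)
  set N : Subgroup Γ := π.ker.map K.fixingSubgroup.subtype
  set T : Subgroup (G × Multiplicative (CycGrp M)) :=
    Subgroup.closure (Set.range fun i => π (φ i))
  set H : Subgroup Γ := (T.comap π).map K.fixingSubgroup.subtype
  have : FiniteDimensional ℚ (F ⊔ cycField M : IntermediateField ℚ Qb) :=
    IntermediateField.finiteDimensional_sup _ _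
  have hFC : (F ⊔ cycField M).fixingSubgroup ≤ N := fun s hs => by
    have hsF := IntermediateField.fixingSubgroup_antitone le_sup_left hs
    have hsC := IntermediateField.fixingSubgroup_antitone le_sup_right hs
    exact ⟨⟨s, IntermediateField.fixingSubgroup_antitone hKF hsF⟩,
      (hN _).mpr ⟨hsF, cycField_fixingSubgroup_le M hsC⟩, rfl⟩
  have hNH : N ≤ H := Subgroup.map_mono fun g hg => by
    rw [Subgroup.mem_comap, hg]
    exact one_mem T
  obtain ⟨hRfix, hRle⟩ := NormChar.fixing_fixedField_of_open (hFC.trans hNH)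
  obtain ⟨hLfix, hLle⟩ := NormChar.fixing_fixedField_of_open hFC
  set R := IntermediateField.fixedField H
  set L := IntermediateField.fixedField N
  have : FiniteDimensional ℚ R :=
    FiniteDimensional.of_injective (IntermediateField.inclusion hRle).toLinearMap
      (IntermediateField.inclusion hRle).toRingHom.injective
  have : FiniteDimensional ℚ L :=
    FiniteDimensional.of_injective (IntermediateField.inclusion hLle).toLinearMap
      (IntermediateField.inclusion hLle).toRingHom.injective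
  have hKR : K ≤ R := fun x hx => fun σ => by
    obtain ⟨g, -, hg⟩ := σ.2
    show (σ : Γ) x = x
    rw [← hg]
    exact apply_eq_of_mem_fixing g.2 hx
  have hRL : R ≤ L := fun x hx => fun σ => hx ⟨σ, hNH σ.2⟩
  have hFL : L.fixingSubgroup ≤ F.fixingSubgroup := fun s hs => by
    rw [hLfix] at hs
    obtain ⟨g, hg, rfl⟩ := hs
    exact ((hN g).mp hg).1
  let _ : Algebra K R := inclAlgebra hKR
  have : IsInclusion K R := isInclusion_inclAlgebra hKR
  let _ : Algebra R L := inclAlgebra hRL
  have : IsInclusion R L := isInclusion_inclAlgebra hRL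
  have hbound : Module.finrank R L ≤ Nat.card T := by
    refine finrank_le_natCard T π (fun σ hσ => ?_) fun g hg => ?_
    · rw [hRfix] at hσ
      obtain ⟨g, hg, rfl⟩ := hσ
      exact ⟨g, rfl, hg⟩
    · rw [hLfix]
      exact ⟨g, hg, rfl⟩
  by_contra hX
  let ψ := NormChar.pullback (R := R) χ M c cycVal_mul cycVal_one_mod
  have hmod : Ideal.span {((M * Ideal.absNorm m : ℕ) : 𝓞 R)} ≠ ⊥ :=
    mt Ideal.span_singleton_eq_bot.mp
      (Nat.cast_ne_zero.mpr (mul_ne_zero hM0 (mt Ideal.absNorm_eq_zero_iff.mp hm)))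
  obtain ⟨SL, hSL⟩ := exists_bad_isDegreeOne L
  -- values at the given places
  have hval : ∀ (B : ValuationSubring Qb) (x : ℕ) (hx : x.Prime) (hB : B.LiesOverPrime x)
      (θ : Γ), θ ∈ H → B.IsFrobeniusAt θ x → ¬ x ∣ M * Ideal.absNorm m →
      (χ.toFun (placeIn K B hx hB).asIdeal, c x) ∈ ψ.values := by
    intro B x hx hB θ hθH hθ hxM
    refine AddSubgroup.subset_closure ⟨(placeIn R B hx hB).asIdeal, ?_⟩
    exact NormChar.pullback_placeIn
      (absNorm_eq_of_isDegreeOne (isDegreeOne_of_frobenius_mem hθ (by rwa [hRfix])))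
      (absNorm_eq_of_isDegreeOne (isDegreeOne_of_frobenius_mem hθ
        (IntermediateField.fixingSubgroup_antitone hKR (by rwa [hRfix])))) hxM
  have h1 : ∀ i, (χ.toFun (placeIn K (A i) (hl i) (hA i)).asIdeal, c (l i)) ∈ ψ.values :=
    fun i => hval _ _ _ _ _ ⟨φ i, Subgroup.subset_closure ⟨i, rfl⟩, rfl⟩ (hφ i)
      ((hl i).not_dvd_mul (hlM i) (hgood i))
  have hπφ : ∀ i, π (φ i) = (πF (φ i), Multiplicative.ofAdd (c (l i))) := fun i =>
    Prod.ext rfl (hcFrob _ _ (hl i) (hA i) (hlM i) _ (hφ i))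
  have h2' : ((0 : V), ∑ i, a i • c (l i)) ∈ ψ.values := by
    obtain ⟨g₀, hg₀⟩ : (∏ i, π (φ i) ^ a i) ∈ π.range :=
      Subgroup.prod_mem _ fun i _ => pow_mem (MonoidHom.mem_range.mpr ⟨φ i, rfl⟩) _
    have hg₀H : (g₀ : Γ) ∈ H := ⟨g₀, by
      show π g₀ ∈ T
      rw [hg₀]
      exact Subgroup.prod_mem _ fun i _ => pow_mem (Subgroup.subset_closure (Set.mem_range_self i)) _, rfl⟩
    have hg₀F : (g₀ : Γ) ∈ F.fixingSubgroup := by
      rw [← hker, show πF g₀ = (π g₀).1 from rfl, hg₀, Prod.fst_prod]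
      simpa [π] using hrel
    obtain ⟨x, hx, hxS, B, hB, -, θ, hθ, hθg⟩ := FLTAgent.Chebotarev.exists_frobenius_eqOn L
      (g₀ : Γ) (bad ∪ (M * Ideal.absNorm m).primeFactors)
    rw [Finset.mem_union, not_or] at hxS
    have hxM : ¬ x ∣ M * Ideal.absNorm m := fun h => hxS.2 (Nat.mem_primeFactors.mpr
      ⟨hx, h, mul_ne_zero hM0 (mt Ideal.absNorm_eq_zero_iff.mp hm)⟩)
    have hquot : (g₀ : Γ)⁻¹ * θ ∈ N := by
      rw [← hLfix, IntermediateField.mem_fixingSubgroup_iff]
      intro y hy
      rw [AlgEquiv.mul_apply, hθg y hy]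
      exact (g₀ : Γ).symm_apply_apply y
    have hθH : θ ∈ H := by
      have := mul_mem hg₀H (hNH hquot)
      rwa [mul_inv_cancel_left] at this
    have hθF : θ ∈ F.fixingSubgroup := by
      have := mul_mem hg₀F (hFL (hLfix.symm ▸ hquot))
      rwa [mul_inv_cancel_left] at this
    have hcθ : cycHom M θ = cycHom M g₀ := by
      obtain ⟨n, hn, hn'⟩ := hquot
      have h := ((hN n).mp hn).2
      rw [show ((n : Γ)) = (g₀ : Γ)⁻¹ * θ from hn', _root_.map_mul, _root_.map_inv,
        inv_mul_eq_one] at h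
      exact h.symm
    have hcx : c x = ∑ i, a i • c (l i) := by
      rw [hcFrob B x hx hB (fun h => hxM (h.mul_right _)) θ hθ,
        show cycHom M g₀ = (π g₀).2 from rfl, hg₀, Prod.snd_prod] at hcθ
      have h := congrArg Multiplicative.toAdd hcθ
      rw [toAdd_ofAdd, toAdd_prod] at h
      rw [h]
      refine Finset.sum_congr rfl fun i _ => ?_
      rw [Prod.pow_snd, toAdd_pow, hπφ, toAdd_ofAdd]
    have h := hval B x hx hB θ hθH hθ hxM
    rwa [hvan B x hx hB hxS.1 θ hθF hθ, hcx] at h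
  set X := ∑ i, a i • χ.toFun (placeIn K (A i) (hl i) (hA i)).asIdeal with hXdef
  have hXmem : (X, (0 : CycGrp M)) ∈ ψ.values := by
    have h := sub_mem (sum_mem fun i (_ : i ∈ Finset.univ) => nsmul_mem (h1 i) (a i)) h2'
    convert h using 1
    refine Prod.ext ?_ ?_ <;> simp [hXdef, Prod.fst_sum, Prod.snd_sum]
  -- the group `T` is carried injectively into the sums of the cyclotomic values
  set C : AddSubgroup (CycGrp M) := AddSubgroup.closure (Set.range fun i => c (l i))
  have hTC : Nat.card T ≤ Nat.card C := by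
    have hmem : ∀ t : T, Multiplicative.toAdd (t.1.2) ∈ C := by
      rintro ⟨t, ht⟩
      refine Subgroup.closure_induction (p := fun t _ => Multiplicative.toAdd t.2 ∈ C)
        ?_ (zero_mem C) (fun _ _ _ _ ha hb => add_mem ha hb) (fun _ _ ha => neg_mem ha) ht
      rintro _ ⟨i, rfl⟩
      simp only [hπφ, toAdd_ofAdd]
      exact AddSubgroup.subset_closure ⟨i, rfl⟩
    refine Nat.card_le_card_of_injective (fun t : T => (⟨_, hmem t⟩ : C)) ?_
    intro t t' h
    have hsnd : (t⁻¹ * t' : T).1.2 = 1 := by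
      have h' : t.1.2 = t'.1.2 := Multiplicative.toAdd.injective (congrArg Subtype.val h)
      simp [h']
    rw [← inv_mul_eq_one]
    refine Subtype.ext (Prod.ext ?_ hsnd)
    obtain ⟨b, hb⟩ := Subgroup.mem_closure_range_iff_of_fintype.mp (t⁻¹ * t' : T).2
    set d := Nat.card (G × Multiplicative (CycGrp M))
    let e : Fin r → ℕ := fun i => (b i % (d : ℤ)).toNat
    have hbe : ∀ i, π (φ i) ^ b i = π (φ i) ^ e i := fun i => by
      rw [← zpow_mod_natCard (π (φ i)) (b i), ← zpow_natCast,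
        Int.toNat_of_nonneg (Int.emod_nonneg _ (by exact_mod_cast Nat.card_pos.ne'))]
    have hprod : ((t⁻¹ * t' : T) : G × Multiplicative (CycGrp M)) = ∏ i, π (φ i) ^ e i := by
      rw [hb]
      exact Finset.prod_congr rfl fun i _ => hbe i
    have hsum : ∑ i, e i • c (l i) = 0 := by
      rw [hprod, Prod.snd_prod] at hsnd
      have h3 := congrArg Multiplicative.toAdd hsnd
      rw [toAdd_prod, toAdd_one] at h3
      refine Eq.trans (Finset.sum_congr rfl fun i _ => ?_) h3
      rw [Prod.pow_snd, toAdd_pow, hπφ, toAdd_ofAdd]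
    rw [hprod, Prod.fst_prod, Subgroup.coe_one, Prod.fst_one]
    refine Finset.prod_eq_one fun i _ => ?_
    obtain ⟨j, hj⟩ := hind e hsum i
    rw [Prod.pow_fst, hj, pow_mul, hG, one_pow]
  -- the values are too many
  have hle := natCard_values_le hmod ψ L _
    (finite_places_above R (bad ∪ SL ∪ (M * Ideal.absNorm m).primeFactors))
    fun P hP hdeg habove => ?_
  · let f : ψ.values →+ CycGrp M := (AddMonoidHom.snd V (CycGrp M)).comp ψ.values.subtype
    have hCf : C ≤ f.range := (AddSubgroup.closure_le _).mpr (by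
      rintro _ ⟨i, rfl⟩
      exact ⟨⟨_, h1 i⟩, rfl⟩)
    have hker2 : 2 ≤ Nat.card f.ker := by
      rw [Nat.succ_le_iff, Finite.one_lt_card_iff_nontrivial]
      exact ⟨⟨⟨⟨_, hXmem⟩, rfl⟩, 0, fun h => hX
        (congrArg (fun z : f.ker => (z.1.1).1) h)⟩⟩
    have hcard : Nat.card f.range * Nat.card f.ker = Nat.card ψ.values := by
      rw [← AddSubgroup.index_ker, AddSubgroup.index_mul_card]
    have hCle : Nat.card C ≤ Nat.card f.range := AddSubgroup.card_le_of_le hCf
    have hCpos : 0 < Nat.card C := Nat.card_pos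
    nlinarith
  · obtain ⟨Q, hQP, hQ⟩ := habove
    obtain ⟨x, hx, hxQ⟩ := exists_prime_mem Q
    obtain ⟨B, hB, rfl⟩ := exists_placeIn L Q hx hxQ
    obtain rfl : P = placeIn R B hx hB := by
      refine HeightOneSpectrum.ext (hQP.symm.trans ?_)
      exact congrArg HeightOneSpectrum.asIdeal
        (below_placeIn (K := R) (L := L) (hl := hx) (hA := hB))
    have hx' : x ∉ bad ∪ SL ∪ (M * Ideal.absNorm m).primeFactors :=
      fun h => hP ⟨x, h, hx, natCast_mem_placeIn⟩
    simp only [Finset.mem_union, not_or] at hx'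
    obtain ⟨θ, hθ⟩ := exists_isFrobeniusAt hx hB
    have hθL : θ ∈ L.fixingSubgroup := hSL B x hx hB hx'.1.2 hQ θ hθ
    have hxM : ¬ x ∣ M * Ideal.absNorm m := fun h => hx'.2 (Nat.mem_primeFactors.mpr
      ⟨hx, h, mul_ne_zero hM0 (mt Ideal.absNorm_eq_zero_iff.mp hm)⟩)
    have hθR : θ ∈ R.fixingSubgroup := IntermediateField.fixingSubgroup_antitone hRL hθL
    rw [NormChar.pullback_placeIn (absNorm_eq_of_isDegreeOne (isDegreeOne_of_frobenius_mem hθ hθR))
      (absNorm_eq_of_isDegreeOne (isDegreeOne_of_frobenius_mem hθ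
        (IntermediateField.fixingSubgroup_antitone hKR hθR))) hxM,
      hvan B x hx hB hx'.1.1 θ (hFL hθL) hθ]
    refine Prod.ext rfl ?_
    rw [hLfix] at hθL
    obtain ⟨n, hn, rfl⟩ := hθL
    have h := hcFrob B x hx hB (fun h => hxM (h.mul_right _)) _ hθ
    rw [show cycHom M (K.fixingSubgroup.subtype n) = 1 from ((hN n).mp hn).2] at h
    exact congrArg Multiplicative.toAdd h.symm

end FLTAgent.LT.Recip
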