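import Fermat.Agent.LT.Recip.HalfLemma
import Fermat.Agent.LT.Recip.Frobenius
import Fermat.Agent.LT.Recip.Congr

/-!
# From degree one primes to all unramified places

A place is given a degree one place above it in an auxiliary abelian extension, where the ray
character is pulled back along the norm.
-/

set_option autoImplicit false
set_option linter.unusedSectionVars false

open IsDedekindDomain NumberField
open scoped Pointwise

noncomputable section

namespace FLTAgent.LT.Recip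

open FLTAgent.TW FLTAgent.Frobenius
open FLTAgent.TW.NormChar (exists_bad_isDegreeOne absNorm_eq_of_isDegreeOne
  isDegreeOne_of_frobenius_mem finite_places_above coprime_absNorm isCoprime_of_coprime_absNorm)

local instance : IsGalois ℚ Qb := qb_isGalois

theorem natCast_notMem_placeIn {K : IntermediateField ℚ Qb} [FiniteDimensional ℚ K]
    {A : ValuationSubring Qb} {l n : ℕ} (hl : l.Prime) (hA : A.LiesOverPrime l) (hn : ¬ l ∣ n) :
    (n : 𝓞 K) ∉ (placeIn K A hl hA).asIdeal := by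
  show toZbar K (n : 𝓞 K) ∉ centre A
  rw [map_natCast]
  exact NormChar.natCast_notMem_centre hl hA hn

/-- A value of additive order a multiple of four determines coefficients modulo four. -/
theorem nsmul_eq_of_cycVal {M q : ℕ} (hq : 2 ≤ q) (hM : M = q ^ 8 - 1) {U : Type}
    [AddCommGroup U] {u : U} (hu : 4 • u = 0) {a b : ℕ}
    (h : a • cycVal M q = b • cycVal M q) : a • u = b • u := by
  have h2 : 2 ≤ q ^ 8 := hq.trans (Nat.le_self_pow (by norm_num) q)
  have hq8 : ((q ^ 8 : ℕ) : ZMod M) = 1 := by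
    rw [show q ^ 8 = M + 1 by omega]
    simp
  have h256 : 2 ^ 8 ≤ q ^ 8 := Nat.pow_le_pow_left hq 8
  have hc : q.Coprime M := by
    refine Nat.Coprime.coprime_dvd_left (dvd_pow_self q (show (8 : ℕ) ≠ 0 by norm_num)) ?_
    rw [hM, Nat.coprime_self_sub_right (by omega)]
    exact Nat.coprime_one_right _
  have hdvd : 4 ∣ addOrderOf (cycVal M q) := by
    set j := addOrderOf (cycVal M q)
    have h0 : cycVal M (q ^ j) = 0 := by rw [← nsmul_cycVal hc, addOrderOf_nsmul_eq_zero]
    rw [cycVal_eq_zero_iff (hc.pow_left j), ← pow_mul] at h0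
    have hr : ((q ^ (j * 2 % 8) : ℕ) : ZMod M) = 1 := by
      rw [← Nat.div_add_mod (j * 2) 8, pow_add, pow_mul, Nat.cast_mul, Nat.cast_pow _ (j * 2 / 8),
        hq8, one_pow, one_mul] at h0
      exact h0
    have hr0 : j * 2 % 8 = 0 := by
      by_contra hne
      have hlt : q ^ (j * 2 % 8) < M := by
        have h7 : q ^ (j * 2 % 8) * 2 ≤ q ^ 8 := calc
          q ^ (j * 2 % 8) * 2 ≤ q ^ (j * 2 % 8) * q := Nat.mul_le_mul_left _ hq
          _ = q ^ (j * 2 % 8 + 1) := by rw [pow_succ]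
          _ ≤ q ^ 8 := Nat.pow_le_pow_right (by omega) (by omega)
        have h3 : 2 ≤ q ^ (j * 2 % 8) := hq.trans (Nat.le_self_pow hne q)
        omega
      have h3 : 2 ≤ q ^ (j * 2 % 8) := hq.trans (Nat.le_self_pow hne q)
      rw [← Nat.cast_one, ZMod.natCast_eq_natCast_iff', Nat.mod_eq_of_lt hlt,
        Nat.mod_eq_of_lt (show 1 < M by omega)] at hr
      omega
    omega
  rw [nsmul_eq_nsmul_iff_modEq] at h ⊢
  exact h.of_dvd ((addOrderOf_dvd_iff_nsmul_eq_zero.mpr hu).trans hdvd)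

variable {E : IntermediateField ℚ Qb} [FiniteDimensional ℚ E] {G : Type} [CommGroup G] [Finite G]
  {m : Ideal (𝓞 E)}

/-- The hypotheses: a ray character equal to `π` at almost all Frobenius elements of degree one. -/
structure ArtinData (π : E.fixingSubgroup →* G) (ω : RayHom m (Additive G)) : Prop where
  ne_bot : m ≠ ⊥
  exists_level : ∃ F : IntermediateField ℚ Qb, FiniteDimensional ℚ F ∧
    ∀ g : E.fixingSubgroup, (g : Γ) ∈ F.fixingSubgroup → π g = 1
  pow_four : ∀ x : G, x ^ 4 = 1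
  degreeOne : ∃ bad : Finset ℕ, ∀ (A : ValuationSubring Qb) (l : ℕ) (hl : l.Prime)
    (hA : A.LiesOverPrime l), l ∉ bad → ∀ φ : E.fixingSubgroup, A.IsFrobeniusAt (φ : Γ) l →
      ω.toFun (placeIn E A hl hA).asIdeal = Additive.ofMul (π φ)
  unramified : ∀ (A : ValuationSubring Qb) (l : ℕ), l.Prime → A.LiesOverPrime l →
    ¬ l ∣ Ideal.absNorm m → ∀ g : E.fixingSubgroup, (g : Γ) ∈ A.inertiaSubgroupIn ℚ → π g = 1

/-- A field with a place of degree one over that of `A`, with a relation for the ideal norms. -/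
structure IsSplit (π : E.fixingSubgroup →* G) (ω : RayHom m (Additive G))
    (A : ValuationSubring Qb) {l : ℕ} (hl : l.Prime) (hA : A.LiesOverPrime l)
    (σ : E.fixingSubgroup) (R : IntermediateField ℚ Qb) [FiniteDimensional ℚ R] [Algebra E R]
    [IsInclusion E R] (M : ℕ) : Prop where
  ne_zero : M ≠ 0
  not_dvd : ¬ l ∣ M
  sigma_eq : ∀ {a b : ℕ},
    a • cycVal M (Ideal.absNorm (placeIn R A hl hA).asIdeal)
      = b • cycVal M (Ideal.absNorm (placeIn R A hl hA).asIdeal) →
    a • Additive.ofMul (π σ) = b • Additive.ofMul (π σ)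
  relNorm_eq : Ideal.relNorm (𝓞 E) (placeIn R A hl hA).asIdeal = (placeIn E A hl hA).asIdeal
  conj_ne : ∀ g ∈ E.fixingSubgroup, g ∉ R.fixingSubgroup →
    centreIn R (g⁻¹ • A) ≠ centreIn R A
  mem_span : ∀ I : Ideal (𝓞 R), I ≠ ⊥ →
    IsCoprime I (Ideal.span {((M * Ideal.absNorm m : ℕ) : 𝓞 R)}) →
    ∃ j : ℕ, ω.toFun (Ideal.relNorm (𝓞 E) I) = j • Additive.ofMul (π σ) ∧
      cycVal M (Ideal.absNorm I) = j • cycVal M (Ideal.absNorm (placeIn R A hl hA).asIdeal)

variable {π : E.fixingSubgroup →* G} {ω : RayHom m (Additive G)} (D : ArtinData π ω)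

include D in
/-- The auxiliary field. -/
theorem exists_isSplit {A : ValuationSubring Qb} {l : ℕ} (hl : l.Prime) (hA : A.LiesOverPrime l)
    (hI : ∀ g : E.fixingSubgroup, (g : Γ) ∈ A.inertiaSubgroupIn ℚ → π g = 1)
    (σ : E.fixingSubgroup)
    (hσ : A.IsFrobeniusAt (σ : Γ) (Nat.card (𝓞 E ⧸ (placeIn E A hl hA).asIdeal))) :
    ∃ (R : IntermediateField ℚ Qb) (_ : FiniteDimensional ℚ R) (_ : Algebra E R)
      (_ : IsInclusion E R) (M : ℕ), IsSplit π ω A hl hA σ R M := by
  classical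
  set q := Nat.card (𝓞 E ⧸ (placeIn E A hl hA).asIdeal) with hq
  have hq2 : 2 ≤ q := one_lt_natCard_residue hl hA
  obtain ⟨f, hf, hqf⟩ := exists_natCard_residue (K := E) hl hA
  set M := q ^ 8 - 1 with hM
  have hq8 : 2 ≤ q ^ 8 := hq2.trans (Nat.le_self_pow (by norm_num) q)
  have hM0 : M ≠ 0 := by omega
  have : NeZero M := ⟨hM0⟩
  have hlM : ¬ l ∣ M := fun h => by
    have hl8 : l ∣ q ^ 8 := (dvd_pow_self l hf.ne').trans (hqf ▸ dvd_pow_self q (by norm_num))
    have h1 := Nat.dvd_sub hl8 h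
    rw [show q ^ 8 - M = 1 by omega] at h1
    exact hl.ne_one (Nat.dvd_one.mp h1)
  obtain ⟨F, hF, hFπ⟩ := D.exists_level
  have := finiteDimensional_cycField M
  let π' : E.fixingSubgroup →* G × Multiplicative (CycGrp M) :=
    π.prod ((cycHom M).comp E.fixingSubgroup.subtype)
  set T := Subgroup.zpowers (π' σ) with hT
  set H : Subgroup Γ := (T.comap π').map E.fixingSubgroup.subtype with hH
  let C : IntermediateField ℚ Qb := (E ⊔ F) ⊔ cycField M
  have : FiniteDimensional ℚ (E ⊔ F : IntermediateField ℚ Qb) :=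
    IntermediateField.finiteDimensional_sup _ _
  have : FiniteDimensional ℚ C := IntermediateField.finiteDimensional_sup _ _
  have hEC : E ≤ C := le_sup_of_le_left le_sup_left
  have hker : ∀ g : E.fixingSubgroup, (g : Γ) ∈ C.fixingSubgroup → π' g = 1 := fun g hg =>
    Prod.ext (hFπ g (IntermediateField.fixingSubgroup_antitone
        (le_sup_of_le_left le_sup_right) hg))
      (cycField_fixingSubgroup_le M (IntermediateField.fixingSubgroup_antitone le_sup_right hg))
  have hCH : C.fixingSubgroup ≤ H := fun s hs =>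
    ⟨⟨s, IntermediateField.fixingSubgroup_antitone hEC hs⟩, by
      show π' _ ∈ T
      rw [hker _ hs]
      exact one_mem T, rfl⟩
  obtain ⟨hRfix, hRle⟩ := NormChar.fixing_fixedField_of_open hCH
  set R := IntermediateField.fixedField H
  have hfdR : FiniteDimensional ℚ R :=
    FiniteDimensional.of_injective (IntermediateField.inclusion hRle).toLinearMap
      (IntermediateField.inclusion hRle).toRingHom.injective
  have hER : E ≤ R := fun x hx => fun s => by
    obtain ⟨g, -, hg⟩ := s.2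
    show (s : Γ) x = x
    rw [← hg]
    exact apply_eq_of_mem_fixing g.2 hx
  let _ : Algebra E R := inclAlgebra hER
  have : IsInclusion E R := isInclusion_inclAlgebra hER
  have hσR : (σ : Γ) ∈ R.fixingSubgroup := by
    rw [hRfix]
    exact ⟨σ, Subgroup.mem_zpowers _, rfl⟩
  have hcard := natCard_residue_eq hER hl hA hσ hσR
  have hnR : Ideal.absNorm (placeIn R A hl hA).asIdeal = q := by
    rw [Ideal.absNorm_apply, Submodule.cardQuot_apply]
    exact hcard
  have hπ'σ : π' σ = (π σ, Multiplicative.ofAdd (cycVal M q)) := by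
    refine Prod.ext rfl ?_
    show cycHom M (σ : Γ) = _
    rw [show q = l ^ f from hqf] at hσ ⊢
    exact cycHom_frobenius hl hA hσ hlM
  refine ⟨R, hfdR, inferInstance, inferInstance, M, hM0, hlM, ?_, ?_, ?_, ?_⟩
  · intro a b h
    rw [hnR] at h
    exact nsmul_eq_of_cycVal hq2 hM (by rw [← ofMul_pow, D.pow_four]; rfl) h
  · have hle : Ideal.relNorm (𝓞 E) (placeIn R A hl hA).asIdeal ≤ (placeIn E A hl hA).asIdeal :=
      (Ideal.relNorm_le_comap (𝓞 E) _).trans (le_of_eq
        (congrArg HeightOneSpectrum.asIdeal (below_placeIn (K := E) (L := R) (hl := hl) (hA := hA))))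
    obtain ⟨J, hJ⟩ := Ideal.dvd_iff_le.mpr hle
    have h := congrArg Ideal.absNorm hJ
    rw [Ideal.absNorm_relNorm, map_mul, hnR,
      show Ideal.absNorm (placeIn E A hl hA).asIdeal = q by
        rw [Ideal.absNorm_apply, Submodule.cardQuot_apply]] at h
    rw [hJ, Ideal.absNorm_eq_one_iff.mp
      (mul_left_cancel₀ (show q ≠ 0 by omega) (h.symm.trans (mul_one q).symm)), Ideal.mul_top]
  · intro g hg hgR he
    obtain ⟨h, hh, hhA⟩ := exists_fix_smul_eq R he.symm
    have hhE : h ∈ E.fixingSubgroup := IntermediateField.fixingSubgroup_antitone hER hh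
    have hd : g * h ∈ A.decompositionSubgroup ℚ :=
      MulAction.mem_stabilizer_iff.mpr (by rw [mul_smul, hhA, smul_inv_smul])
    obtain ⟨L, _, _, hCL⟩ : ∃ L : IntermediateField ℚ Qb,
        FiniteDimensional ℚ L ∧ Normal ℚ L ∧ C ≤ L :=
      ⟨IntermediateField.normalClosure ℚ C Qb, normalClosure.is_finiteDimensional ℚ C Qb,
        normalClosure.normal ℚ C Qb, C.le_normalClosure⟩
    obtain ⟨k, ι, hι, hιE, hdι⟩ := exists_pow_mul_inertia hl hA hσ σ.2 L (hEC.trans hCL) hd
      (mul_mem hg hhE)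
    have hsame : π' (⟨g * h, mul_mem hg hhE⟩) = π' (σ ^ k * ⟨ι, hιE⟩) := by
      rw [eq_comm, ← inv_mul_eq_one, ← _root_.map_inv, ← _root_.map_mul]
      refine hker _ ((IntermediateField.mem_fixingSubgroup_iff _ _).mpr fun x hx => ?_)
      show (((σ : Γ) ^ k * ι)⁻¹ * (g * h)) x = x
      rw [AlgEquiv.mul_apply, hdι x (hCL hx), ← AlgEquiv.mul_apply, inv_mul_cancel]
      rfl
    have hι1 : π' ⟨ι, hιE⟩ = 1 := Prod.ext (hI ⟨ι, hιE⟩ hι) (cycHom_inertia hl hA hlM hι)
    rw [_root_.map_mul, hι1, mul_one, _root_.map_pow] at hsame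
    refine hgR ?_
    rw [hRfix] at hh ⊢
    have hgh : g * h ∈ H := ⟨⟨g * h, mul_mem hg hhE⟩, by
      show π' _ ∈ T
      rw [hsame]
      exact pow_mem (Subgroup.mem_zpowers _) k, rfl⟩
    simpa using mul_mem hgh (inv_mem hh)
  · intro I hI0 hIc
    obtain ⟨bad, hbad⟩ := D.degreeOne
    obtain ⟨SR, hSR⟩ := exists_bad_isDegreeOne R
    let ψ := NormChar.pullback (R := R) ω M (cycVal M) cycVal_mul cycVal_one_mod
    let S : AddSubgroup (Additive G × CycGrp M) :=
      AddSubgroup.zmultiples (Additive.ofMul (π σ), cycVal M q)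
    have hmod : Ideal.span {((M * Ideal.absNorm m : ℕ) : 𝓞 R)} ≠ ⊥ :=
      mt Ideal.span_singleton_eq_bot.mp
        (Nat.cast_ne_zero.mpr (mul_ne_zero hM0 (mt Ideal.absNorm_eq_zero_iff.mp D.ne_bot)))
    have hz := eq_zero_of_degreeOne hmod (rayMap (W' := (Additive G × CycGrp M) ⧸ S) (QuotientAddGroup.mk' S) ψ) _
      (finite_places_above R (SR ∪ bad ∪ (M * Ideal.absNorm m).primeFactors))
      fun P hP hdeg => ?_
    · have h := hz I
      have hval : ψ.toFun I = (ω.toFun (Ideal.relNorm (𝓞 E) I), cycVal M (Ideal.absNorm I)) :=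
        if_pos ⟨hI0, hIc⟩
      replace h : ψ.toFun I ∈ S := (QuotientAddGroup.eq_zero_iff _).mp h
      rw [hval, AddSubgroup.mem_zmultiples_iff] at h
      obtain ⟨z, hz'⟩ := h
      set u : Additive G × CycGrp M := (Additive.ofMul (π σ), cycVal M q)
      obtain ⟨j, hj⟩ := mem_multiples_iff_mem_zmultiples.mpr
        (AddSubgroup.mem_zmultiples_iff.mpr ⟨z, rfl⟩ : z • u ∈ AddSubgroup.zmultiples u)
      change j • u = z • u at hj
      rw [hz'] at hj
      exact ⟨j, (congrArg Prod.fst hj).symm, by rw [hnR]; exact (congrArg Prod.snd hj).symm⟩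
    · obtain ⟨x, hx, hxP⟩ := exists_prime_mem P
      obtain ⟨B, hB, rfl⟩ := exists_placeIn R P hx hxP
      have hx' : x ∉ SR ∪ bad ∪ (M * Ideal.absNorm m).primeFactors :=
        fun h => hP ⟨x, h, hx, natCast_mem_placeIn⟩
      simp only [Finset.mem_union, not_or] at hx'
      have hxM : ¬ x ∣ M * Ideal.absNorm m := fun h => hx'.2 (Nat.mem_primeFactors.mpr
        ⟨hx, h, mul_ne_zero hM0 (mt Ideal.absNorm_eq_zero_iff.mp D.ne_bot)⟩)
      obtain ⟨θ, hθ⟩ := exists_isFrobeniusAt hx hB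
      have hθR := hSR B x hx hB hx'.1.1 hdeg θ hθ
      have hθE := IntermediateField.fixingSubgroup_antitone hER hθR
      rw [hRfix] at hθR
      obtain ⟨g, hgT, hgθ⟩ := hθR
      show QuotientAddGroup.mk' S (ψ.toFun _) = 0
      rw [QuotientAddGroup.mk'_apply, QuotientAddGroup.eq_zero_iff,
        NormChar.pullback_placeIn (absNorm_eq_of_isDegreeOne hdeg)
          (absNorm_eq_of_isDegreeOne (isDegreeOne_of_frobenius_mem hθ hθE)) hxM,
        hbad B x hx hB hx'.1.2 g (by rw [show (g : Γ) = θ from hgθ]; exact hθ)]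
      obtain ⟨z, hz⟩ := Subgroup.mem_zpowers_iff.mp (show π' g ∈ T from hgT)
      refine AddSubgroup.mem_zmultiples_iff.mpr ⟨z, ?_⟩
      have h1 := cycHom_frobenius (M := M) (f := 1) hx hB (φ := θ) (by rwa [pow_one])
        fun h => hxM (h.mul_right _)
      rw [pow_one] at h1
      rw [hπ'σ] at hz
      refine Prod.ext ?_ ?_
      · show z • Additive.ofMul (π σ) = Additive.ofMul (π g)
        rw [← ofMul_zpow]
        exact congrArg Additive.ofMul (congrArg Prod.fst hz)
      · refine Multiplicative.ofAdd.injective ?_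
        show Multiplicative.ofAdd (z • cycVal M q) = Multiplicative.ofAdd (cycVal M x)
        rw [ofAdd_zsmul, ← h1, ← hgθ]
        exact congrArg Prod.snd hz

include D in
/-- The value at a place prime to the modulus. -/
theorem value_of_not_dvd {A : ValuationSubring Qb} {l : ℕ} (hl : l.Prime) (hA : A.LiesOverPrime l)
    (hlN : ¬ l ∣ Ideal.absNorm m) (σ : E.fixingSubgroup)
    (hσ : A.IsFrobeniusAt (σ : Γ) (Nat.card (𝓞 E ⧸ (placeIn E A hl hA).asIdeal))) :
    ω.toFun (placeIn E A hl hA).asIdeal = Additive.ofMul (π σ) := by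
  obtain ⟨R, _, _, _, M, hS⟩ := exists_isSplit D hl hA (D.unramified A l hl hA hlN) σ hσ
  have hnot := natCast_notMem_placeIn (K := R) hl hA
    (show ¬ l ∣ M * Ideal.absNorm m from fun h => (hl.dvd_mul.mp h).elim hS.not_dvd hlN)
  obtain ⟨j, hj1, hj2⟩ := hS.mem_span _ (placeIn R A hl hA).ne_bot
    (Ideal.isCoprime_iff_sup_eq.mpr
      ((((placeIn R A hl hA).isPrime.isMaximal (placeIn R A hl hA).ne_bot).out).2 _
        (lt_of_le_of_ne le_sup_left fun he =>
          hnot (le_sup_right.trans he.ge (Ideal.mem_span_singleton_self _)))))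
  rw [hS.relNorm_eq] at hj1
  rw [hj1, ← hS.sigma_eq (a := 1) (b := j) (by rw [one_nsmul]; exact hj2), one_nsmul]

/-- Congruence modulo an integer in the local ring of a place. -/
def NearAt {K : IntermediateField ℚ Qb} (v : Ext.Place K) (n : ℕ) (x y : 𝓞 K) : Prop :=
  ∃ t : 𝓞 K, t ∉ v.asIdeal ∧ (n : 𝓞 K) ∣ t * (x - y)

variable {A : ValuationSubring Qb} {l : ℕ} {hl : l.Prime} {hA : A.LiesOverPrime l}
  {σ : E.fixingSubgroup} {R : IntermediateField ℚ Qb} [FiniteDimensional ℚ R] [Algebra E R]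
  [IsInclusion E R] {M : ℕ}

include D in
/-- Norms of elements congruent to `1` at the other places. -/
theorem IsSplit.norm_near (hS : IsSplit π ω A hl hA σ R M) {k : ℕ} {J : Ideal (𝓞 R)}
    (hJ : Ideal.span {((M * Ideal.absNorm m : ℕ) : 𝓞 R)}
      = (placeIn R A hl hA).asIdeal ^ k * J)
    {x : 𝓞 R} (hxJ : x - 1 ∈ J) :
    (∀ v : Ext.Place E, v ≠ placeIn E A hl hA →
      NearAt v (Ideal.absNorm m) (Algebra.intNorm (𝓞 E) (𝓞 R) x) 1) ∧
    ∀ a : 𝓞 E, (∀ e : 𝓞 R, toZbar R e = toZbar E a →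
        NearAt (placeIn R A hl hA) (M * Ideal.absNorm m) x e) →
      NearAt (placeIn E A hl hA) (Ideal.absNorm m) (Algebra.intNorm (𝓞 E) (𝓞 R) x) a := by
  have hn0 : M * Ideal.absNorm m ≠ 0 :=
    mul_ne_zero hS.ne_zero (mt Ideal.absNorm_eq_zero_iff.mp D.ne_bot)
  have one : ∀ (B : ValuationSubring Qb) (x' : ℕ) (hx' : x'.Prime) (hB : B.LiesOverPrime x'),
      centreIn R B ≠ centreIn R A → CongAt B (M * Ideal.absNorm m) (toZbar R x) 1 := by
    intro B x' hx' hB hne
    obtain ⟨e, heQ, hed⟩ := exists_dvd_of_mem hJ hxJ (Q := placeIn R B hx' hB)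
      fun h => hne (congrArg HeightOneSpectrum.asIdeal h)
    have := CongAt.of_dvd (A := B) (y := 1) heQ hed
    rwa [map_one] at this
  have conj : ∀ (B : ValuationSubring Qb) (x' : ℕ) (hx' : x'.Prime) (hB : B.LiesOverPrime x')
      (g : Γ), centreIn R (g⁻¹ • B) ≠ centreIn R A →
      CongAt B (M * Ideal.absNorm m) (g • toZbar R x) 1 := by
    intro B x' hx' hB g hne
    have h := (one (g⁻¹ • B) x' hx' (liesOverPrime_smul hB _) hne).smul g
    rwa [smul_inv_smul, smul_one] at h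
  have down : ∀ (B : ValuationSubring Qb) (x' : ℕ) (hx' : x'.Prime) (hB : B.LiesOverPrime x')
      (z : 𝓞 E), CongAt B (M * Ideal.absNorm m)
        (toZbar E (Algebra.intNorm (𝓞 E) (𝓞 R) x)) (toZbar E z) →
      NearAt (placeIn E B hx' hB) (Ideal.absNorm m) (Algebra.intNorm (𝓞 E) (𝓞 R) x) z := by
    intro B x' hx' hB z h
    obtain ⟨t, ht, hd⟩ := h.descend hx' hB hn0
    exact ⟨t, ht, (Nat.cast_dvd_cast (dvd_mul_left _ M)).trans hd⟩
  refine ⟨fun v hv => ?_, fun a ha => ?_⟩
  · obtain ⟨x', hx', hxv⟩ := exists_prime_mem v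
    obtain ⟨B, hB, rfl⟩ := exists_placeIn E v hx' hxv
    refine down B x' hx' hB 1 ?_
    rw [map_one]
    refine congAt_norm_one fun g hg => conj B x' hx' hB g fun he => hv (HeightOneSpectrum.ext ?_)
    ext y
    show toZbar E y ∈ centre B ↔ toZbar E y ∈ centre A
    have hy := SetLike.ext_iff.mp he
      ⟨⟨(y : E), IsInclusion.le (K := E) (L := R) (y : E).2⟩,
        (isIntegral_algHom_iff (R.val.restrictScalars ℤ) Subtype.val_injective).mp
          (toZbar E y).2⟩
    change _ ∈ centre (g⁻¹ • B) ↔ _ at hy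
    rw [centre_smul, Ideal.mem_pointwise_smul_iff_inv_smul_mem, inv_inv] at hy
    rw [show g • _ = toZbar E y from Subtype.ext (apply_coe_eq_of_mem_fixing hg (y : E))] at hy
    exact hy
  · refine down A l hl hA a (congAt_norm ?_ fun g hg hgR => conj A l hl hA g (hS.conj_ne g hg hgR))
    let e : 𝓞 R := ⟨⟨(a : E), IsInclusion.le (K := E) (L := R) (a : E).2⟩,
      (isIntegral_algHom_iff (R.val.restrictScalars ℤ) Subtype.val_injective).mp (toZbar E a).2⟩
    obtain ⟨t, ht, hd⟩ := ha e rfl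
    exact CongAt.of_dvd ht hd

include D in
/-- At an unramified place dividing the modulus every unit residue is that of an element with
trivial value, congruent to `1` at the other places. -/
theorem IsSplit.exists_unit (hS : IsSplit π ω A hl hA σ R M) {a : 𝓞 E}
    (ha : a ∉ (placeIn E A hl hA).asIdeal) :
    ∃ z : 𝓞 E, NearAt (placeIn E A hl hA) (Ideal.absNorm m) z a ∧
      (∀ v, v ≠ placeIn E A hl hA → NearAt v (Ideal.absNorm m) z 1) ∧
      ω.toFun (Ideal.span {z}) = 0 := by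
  set n := M * Ideal.absNorm m with hn
  set w := placeIn R A hl hA
  have hn0 : (n : 𝓞 R) ≠ 0 := Nat.cast_ne_zero.mpr
    (mul_ne_zero hS.ne_zero (mt Ideal.absNorm_eq_zero_iff.mp D.ne_bot))
  obtain ⟨k, J, hJ, hJP⟩ := exists_prime_split w hn0
  let e : 𝓞 R := ⟨⟨(a : E), IsInclusion.le (K := E) (L := R) (a : E).2⟩,
    (isIntegral_algHom_iff (R.val.restrictScalars ℤ) Subtype.val_injective).mp (toZbar E a).2⟩
  have he : e ∉ w.asIdeal := ha
  obtain ⟨x, hxw, hxJ⟩ := exists_congr_one hJP e (k + 1)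
  obtain ⟨h1, h2⟩ := hS.norm_near D hJ hxJ
  refine ⟨_, h2 a fun e' he' => ?_, h1, ?_⟩
  · obtain rfl : e' = e := toZbar_injective R he'
    exact exists_dvd_of_mem_pow hJ hJP (Ideal.pow_le_pow_right (Nat.le_succ k) hxw)
  -- `x` is prime to the modulus
  have hxw' : x ∉ w.asIdeal := fun h => he (by
    have := Ideal.pow_le_self (Nat.succ_ne_zero k) hxw
    simpa using sub_mem h this)
  have hx0 : x ≠ 0 := fun h => hxw' (h ▸ zero_mem _)
  have hcop : IsCoprime (Ideal.span {x}) (Ideal.span {(n : 𝓞 R)}) := by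
    rw [hJ]
    refine IsCoprime.mul_right (IsCoprime.pow_right ?_) ?_
    · refine Ideal.isCoprime_iff_sup_eq.mpr ?_
      rw [sup_comm]
      exact ((w.isPrime.isMaximal w.ne_bot).out).2 _ (lt_of_le_of_ne le_sup_left fun he' =>
        hxw' (le_sup_right.trans he'.ge (Ideal.mem_span_singleton_self _)))
    · exact Ideal.isCoprime_iff_exists.mpr ⟨x, Ideal.mem_span_singleton_self x, 1 - x,
        neg_sub x 1 ▸ neg_mem hxJ, add_sub_cancel _ _⟩
  obtain ⟨j, hj1, hj2⟩ := hS.mem_span _ (mt Ideal.span_singleton_eq_bot.mp hx0) hcop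
  rw [Ideal.relNorm_singleton] at hj1
  rw [hj1, ← zero_nsmul (Additive.ofMul (π σ))]
  refine hS.sigma_eq ?_
  rw [zero_nsmul, ← hj2, Ideal.absNorm_span_singleton]
  refine cycVal_one_mod _ (NormChar.dvd_norm_int_sub_one ?_)
  exact le_span_of_dvd hJ (dvd_mul_right M _) (natCast_notMem_placeIn hl hA hS.not_dvd) hxJ

include D in
/-- At an unramified place dividing the modulus there is a uniformizer congruent to `1` at the other
places, whose prime to the modulus part has value minus that of a Frobenius element. -/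
theorem IsSplit.exists_unif (hS : IsSplit π ω A hl hA σ R M) :
    ∃ (z : 𝓞 E) (I : Ideal (𝓞 E)), z ≠ 0 ∧ I ≠ ⊥ ∧
      Ideal.span {z} = (placeIn E A hl hA).asIdeal * I ∧
      IsCoprime I (Ideal.span {(Ideal.absNorm m : 𝓞 E)}) ∧
      ω.toFun I + Additive.ofMul (π σ) = 0 ∧
      ∀ v, v ≠ placeIn E A hl hA → NearAt v (Ideal.absNorm m) z 1 := by
  set n := M * Ideal.absNorm m with hn
  set w := placeIn R A hl hA with hw
  have hn0 : (n : 𝓞 R) ≠ 0 := Nat.cast_ne_zero.mpr
    (mul_ne_zero hS.ne_zero (mt Ideal.absNorm_eq_zero_iff.mp D.ne_bot))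
  obtain ⟨k, J, hJ, hJP⟩ := exists_prime_split w hn0
  obtain ⟨ρ, hρ, hρ2⟩ := SetLike.exists_of_lt
    (Ideal.pow_right_strictAnti w.asIdeal w.ne_bot w.isPrime.ne_top (show 1 < 2 by norm_num))
  replace hρ : ρ ∈ w.asIdeal ^ 1 := hρ
  rw [pow_one] at hρ
  obtain ⟨x, hxw, hxJ⟩ := exists_congr_one hJP ρ 2
  obtain ⟨h1, -⟩ := hS.norm_near D hJ hxJ
  have hxw1 : x ∈ w.asIdeal := by
    simpa using add_mem (Ideal.pow_le_self two_ne_zero hxw) hρ
  have hxw2 : x ∉ w.asIdeal ^ 2 := fun h => hρ2 (by simpa using sub_mem h hxw)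
  have hx0 : x ≠ 0 := fun h => hxw2 (h ▸ zero_mem _)
  obtain ⟨I, hI⟩ := Ideal.dvd_iff_le.mpr ((Ideal.span_singleton_le_iff_mem _).mpr hxw1)
  have hI0 : I ≠ ⊥ := fun h => hx0 (by
    rw [h, Ideal.mul_bot, Ideal.span_singleton_eq_bot] at hI
    exact hI)
  have hIc : IsCoprime I (Ideal.span {(n : 𝓞 R)}) := by
    rw [hJ]
    refine IsCoprime.mul_right (IsCoprime.pow_right ?_) ?_
    · refine Ideal.isCoprime_iff_sup_eq.mpr ?_
      rw [sup_comm]
      refine ((w.isPrime.isMaximal w.ne_bot).out).2 _ (lt_of_le_of_ne le_sup_left fun he =>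
        hxw2 ?_)
      rw [sq]
      exact Ideal.mul_mono_right (le_sup_right.trans he.ge)
        (hI ▸ Ideal.mem_span_singleton_self x)
    · refine IsCoprime.of_mul_left_right (x := w.asIdeal) (hI ▸ ?_)
      exact Ideal.isCoprime_iff_exists.mpr ⟨x, Ideal.mem_span_singleton_self x, 1 - x,
        neg_sub x 1 ▸ neg_mem hxJ, add_sub_cancel _ _⟩
  obtain ⟨j, hj1, hj2⟩ := hS.mem_span _ hI0 hIc
  refine ⟨Algebra.intNorm (𝓞 E) (𝓞 R) x, Ideal.relNorm (𝓞 E) I,
    Algebra.intNorm_ne_zero.mpr hx0, mt Ideal.relNorm_eq_bot_iff.mp hI0, ?_, ?_, ?_, h1⟩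
  · rw [← Ideal.relNorm_singleton, hI, map_mul, hS.relNorm_eq]
  · refine isCoprime_of_coprime_absNorm ?_
    rw [Ideal.absNorm_relNorm, Ideal.absNorm_span_singleton,
      show ((Ideal.absNorm m : ℕ) : 𝓞 E) = algebraMap ℤ (𝓞 E) (Ideal.absNorm m : ℤ) by simp,
      Algebra.norm_algebraMap_of_basis (RingOfIntegers.basis E), Int.natAbs_pow,
      Int.natAbs_natCast]
    exact ((coprime_absNorm hI0 hIc).coprime_dvd_right (dvd_mul_left _ _)).pow_right _
  · rw [hj1, ← succ_nsmul, ← zero_nsmul (Additive.ofMul (π σ))]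
    refine hS.sigma_eq ?_
    rw [zero_nsmul, succ_nsmul, ← hj2, ← hw]
    have hwc : (Ideal.absNorm w.asIdeal).Coprime M := by
      refine coprime_absNorm w.ne_bot (Ideal.isCoprime_iff_sup_eq.mpr ?_)
      exact ((w.isPrime.isMaximal w.ne_bot).out).2 _ (lt_of_le_of_ne le_sup_left fun he =>
        natCast_notMem_placeIn hl hA hS.not_dvd
          (le_sup_right.trans he.ge (Ideal.mem_span_singleton_self _)))
    rw [← cycVal_mul _ _ ((coprime_absNorm hI0 hIc).coprime_dvd_right (dvd_mul_right _ _)) hwc,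
      mul_comm, ← map_mul, ← hI, Ideal.absNorm_span_singleton]
    refine cycVal_one_mod _ (NormChar.dvd_norm_int_sub_one ?_)
    exact le_span_of_dvd hJ (dvd_mul_right M _) (natCast_notMem_placeIn hl hA hS.not_dvd) hxJ

end FLTAgent.LT.Recip
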